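import Fermat.Agent.RT.Algebra.Finite

/-!
# Flipping the local component at a prime

A module `M` receives two copies of `N` by `δ`, with a map `δs` back such that
`δs ∘ δ = (c, T; T, c)`. At a prime in the support of `N` containing `y = T ^ 2 - c ^ 2` the
cokernel of `δ` is supported, and its minimal primes have the full dimension when it is torsion
free over the coefficient ring.
-/

set_option autoImplicit false

namespace Fermat.Agent.RT.Lift

open Submodule IsLocalRing
open scoped Matrix

section Support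

variable {Λ : Type*} [CommRing Λ] {N M : Type*} [AddCommGroup N] [Module Λ N] [AddCommGroup M]
  [Module Λ M]

/-- The map `(a, b) ↦ (c a + T b, T a + c b)`. -/
def crossMap (c T : Λ) : N × N →ₗ[Λ] N × N :=
  (c • LinearMap.fst Λ N N + T • LinearMap.snd Λ N N).prod
    (T • LinearMap.fst Λ N N + c • LinearMap.snd Λ N N)

@[simp] theorem crossMap_apply (c T : Λ) (u : N × N) :
    crossMap c T u = (c • u.1 + T • u.2, T • u.1 + c • u.2) := rfl

theorem crossMap_neg_crossMap (c T : Λ) (u : N × N) :
    crossMap c (-T) (crossMap c T u) = (c ^ 2 - T ^ 2) • u := by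
  ext <;> simp only [crossMap_apply, Prod.smul_fst, Prod.smul_snd] <;> module

/-- An element mapping a finite module into `P • N` lies in `P`, if `P` contains the
annihilator. -/
theorem mem_of_forall_smul_mem [Module.Finite Λ N] {P : Ideal Λ} [P.IsPrime]
    (hN : Module.annihilator Λ N ≤ P) {r : Λ} (h : ∀ a : N, r • a ∈ P • (⊤ : Submodule Λ N)) :
    r ∈ P := by
  let f : Module.End Λ N := r • LinearMap.id
  obtain ⟨p, hp, -, hcoeff, hev⟩ :=
    LinearMap.exists_monic_and_natDegree_eq_and_coeff_mem_pow_and_aeval_eq_zero Λ f P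
      (by rintro _ ⟨a, rfl⟩; exact h a)
  have hpr : p.eval r ∈ P := by
    refine hN (Module.mem_annihilator.mpr fun a => ?_)
    have hf : f = algebraMap Λ (Module.End Λ N) r := rfl
    rw [hf, Polynomial.aeval_algebraMap_apply] at hev
    simpa using LinearMap.congr_fun hev a
  rw [Polynomial.eval_eq_sum_range, Finset.sum_range_succ, hp.coeff_natDegree, one_mul] at hpr
  have hsum : ∑ i ∈ Finset.range p.natDegree, p.coeff i * r ^ i ∈ P := sum_mem fun i hi =>
    P.mul_mem_right _ (Ideal.pow_le_self (Nat.sub_ne_zero_of_lt (Finset.mem_range.mp hi))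
      (hcoeff i))
  exact Ideal.IsPrime.mem_of_pow_mem ‹_› _ ((P.add_mem_iff_right hsum).mp hpr)

variable {δ : N × N →ₗ[Λ] M} {δs : M →ₗ[Λ] N × N} {c T : Λ}

/-- The cokernel of `δ` is supported at `P`. -/
theorem annihilator_coker_le [Module.Finite Λ N] {P : Ideal Λ} [P.IsPrime]
    (hN : Module.annihilator Λ N ≤ P) (hy : T ^ 2 - c ^ 2 ∈ P)
    (hδ : δs ∘ₗ δ = crossMap c T) (hsurj : Function.Surjective δs) :
    Module.annihilator Λ (M ⧸ LinearMap.range δ) ≤ P := by
  intro s hs
  have hy' : c ^ 2 - T ^ 2 ∈ P := by simpa using P.neg_mem hy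
  have hrange : ∀ w : N × N, ∃ u, crossMap c T u = s • w := fun w => by
    obtain ⟨m, rfl⟩ := hsurj w
    have h0 : Submodule.Quotient.mk (p := LinearMap.range δ) (s • m) = 0 := by
      rw [Submodule.Quotient.mk_smul]
      exact Module.mem_annihilator.mp hs _
    obtain ⟨u, hu⟩ := (Submodule.Quotient.mk_eq_zero _).mp h0
    exact ⟨u, by rw [← hδ, LinearMap.comp_apply, hu, map_smul]⟩
  refine Ideal.IsPrime.mem_of_pow_mem ‹_› 2 (mem_of_forall_smul_mem hN fun a => ?_)
  obtain ⟨u, hu⟩ := hrange (a, 0)
  have hadj := congrArg (crossMap c (-T)) hu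
  rw [crossMap_neg_crossMap] at hadj
  simp only [crossMap_apply, Prod.smul_fst, Prod.smul_snd, smul_zero, add_zero,
    Prod.ext_iff] at hadj
  have h1 : s • a = c • u.1 + T • u.2 := by simpa using (congrArg Prod.fst hu).symm
  have hc : ∀ b : N, s • c • b ∈ P • (⊤ : Submodule Λ N) := fun b => by
    obtain ⟨v, hv⟩ := hrange (b, 0)
    have h := congrArg (fun w => (crossMap c (-T) w).1) hv
    simp only [crossMap_neg_crossMap] at h
    simp only [crossMap_apply, Prod.smul_fst, smul_zero, add_zero, Prod.smul_snd] at h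
    rw [smul_comm s c, ← h]
    exact Submodule.smul_mem_smul hy' mem_top
  have hT : ∀ b : N, s • T • b ∈ P • (⊤ : Submodule Λ N) := fun b => by
    obtain ⟨v, hv⟩ := hrange (b, 0)
    have h := congrArg (fun w => (crossMap c (-T) w).2) hv
    simp only [crossMap_neg_crossMap] at h
    simp only [crossMap_apply, Prod.smul_fst, smul_zero, add_zero, Prod.smul_snd, neg_smul] at h
    rw [smul_comm s T, ← neg_neg (T • s • b), ← h]
    exact neg_mem (Submodule.smul_mem_smul hy' mem_top)
  rw [sq, mul_smul, h1, smul_add]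
  exact add_mem (hc _) (hT _)

end Support

section Local

variable {S : Type*} [CommRing S] [IsLocalRing S]

/-- A map of finite free modules over a local ring which is injective modulo the maximal ideal
has a left inverse. -/
theorem exists_leftInverse_of_injective_mod {F G : Type*} [AddCommGroup F] [Module S F]
    [Module.Free S F] [Module.Finite S F] [AddCommGroup G] [Module S G] [Module.Free S G]
    [Module.Finite S G] (f : F →ₗ[S] G)
    (h : ∀ x, f x ∈ maximalIdeal S • (⊤ : Submodule S G) →
      x ∈ maximalIdeal S • (⊤ : Submodule S F)) :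
    ∃ g : G →ₗ[S] F, g ∘ₗ f = LinearMap.id := by
  classical
  let bF := Module.Free.chooseBasis S F
  let bG := Module.Free.chooseBasis S G
  let A := LinearMap.toMatrix bF bG f
  let A' := A.map (residue S)
  have hinj : LinearMap.ker A'.mulVecLin = ⊥ := by
    refine (Submodule.eq_bot_iff _).mpr fun v hv => ?_
    choose w hw using fun i => IsLocalRing.residue_surjective (R := S) (v i)
    let x := bF.equivFun.symm w
    have hx : ∀ j, bG.repr (f x) j ∈ maximalIdeal S := fun j => by
      have h1 : bG.repr (f x) j = (A *ᵥ w) j := by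
        rw [show w = ⇑(bF.repr x) from (bF.equivFun.apply_symm_apply w).symm]
        exact (congrFun (LinearMap.toMatrix_mulVec_repr bF bG f x) j).symm
      rw [← residue_eq_zero_iff, h1, RingHom.map_mulVec]
      rw [show (residue S) ∘ w = v from funext hw]
      exact congrFun hv j
    have hfx : f x ∈ maximalIdeal S • (⊤ : Submodule S G) := by
      rw [← bG.sum_repr (f x)]
      exact sum_mem fun j _ => Submodule.smul_mem_smul (hx j) mem_top
    have hle : maximalIdeal S • (⊤ : Submodule S F) ≤
        ⨅ i, Submodule.comap (bF.coord i) (maximalIdeal S) := by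
      refine Submodule.smul_le.mpr fun r hr y _ => ?_
      simp only [Submodule.mem_iInf, Submodule.mem_comap, map_smul, smul_eq_mul]
      exact fun i => (maximalIdeal S).mul_mem_right _ hr
    funext i
    have hi := (Submodule.mem_iInf _).mp (hle (h x hfx)) i
    rw [Submodule.mem_comap, Module.Basis.coord_apply,
      show bF.repr x i = w i from congrFun (bF.equivFun.apply_symm_apply w) i] at hi
    rw [← hw i]
    exact (residue_eq_zero_iff _).mpr hi
  obtain ⟨g', hg'⟩ := A'.mulVecLin.exists_leftInverse_of_injective hinj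
  choose B hB using fun i j => IsLocalRing.residue_surjective (R := S) (LinearMap.toMatrix' g' i j)
  let B' : Matrix _ _ S := Matrix.of B
  have hBA : IsUnit (B' * A).det := by
    refine (isUnit_map_iff (residue S) _).mp ?_
    have h1 : (B' * A).map (residue S) = 1 := by
      rw [Matrix.map_mul, show B'.map (residue S) = LinearMap.toMatrix' g' from Matrix.ext hB]
      show LinearMap.toMatrix' g' * A' = 1
      rw [← LinearMap.toMatrix'_toLin' A', ← LinearMap.toMatrix'_comp]
      show LinearMap.toMatrix' (g' ∘ₗ A'.mulVecLin) = 1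
      rw [hg', LinearMap.toMatrix'_id]
    rw [RingHom.map_det, RingHom.mapMatrix_apply, h1, Matrix.det_one]
    exact isUnit_one
  refine ⟨Matrix.toLin bG bF ((B' * A)⁻¹ * B'), (LinearMap.toMatrix bF bF).injective ?_⟩
  rw [LinearMap.toMatrix_comp bF bG bF, LinearMap.toMatrix_toLin, LinearMap.toMatrix_id,
    Matrix.mul_assoc]
  exact Matrix.nonsing_inv_mul _ hBA

/-- Surjectivity modulo the maximal ideal gives surjectivity. -/
theorem surjective_of_surjective_mod {F G : Type*} [AddCommGroup F] [Module S F] [AddCommGroup G]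
    [Module S G] [Module.Finite S G] (f : F →ₗ[S] G)
    (h : ∀ y, ∃ x, f x - y ∈ maximalIdeal S • (⊤ : Submodule S G)) : Function.Surjective f := by
  rw [← LinearMap.range_eq_top, eq_top_iff]
  refine Submodule.le_of_le_smul_of_le_jacobson_bot Module.Finite.fg_top
    (IsLocalRing.maximalIdeal_le_jacobson _) fun y _ => ?_
  obtain ⟨x, hx⟩ := h y
  exact Submodule.mem_sup.mpr ⟨f x, ⟨x, rfl⟩, -(f x - y), neg_mem hx, by abel⟩

end Local

section Dimension

variable {Λ S : Type*} [CommRing Λ] [CommRing S] [IsNoetherianRing S]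
  {C : Type*} [AddCommGroup C] [Module Λ C] [Module S C] [SMulCommClass Λ S C]
  [Module.Finite S C] [Module.Finite Λ C]

/-- A minimal prime of a module finite and torsion free over a domain `S` has the dimension of
`S`, and lies below a prime containing everything which maps the module into `𝔭` times itself,
and meeting the elements which act by scalars in those of `𝔭`, for every prime `𝔭` of `S`. -/
theorem minimalPrime_spec (htf : ∀ (s : S) (x : C), s • x = 0 → s = 0 ∨ x = 0) {𝔮 : Ideal Λ}
    (h𝔮 : 𝔮 ∈ (Module.annihilator Λ C).minimalPrimes) :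
    ringKrullDim (Λ ⧸ 𝔮) = ringKrullDim S ∧
      ∀ 𝔭 : Ideal S, 𝔭.IsPrime → ∃ 𝔔 : Ideal Λ, 𝔔.IsPrime ∧ 𝔮 ≤ 𝔔 ∧
        (∀ a : Λ, (∀ x : C, a • x ∈ 𝔭 • (⊤ : Submodule S C)) → a ∈ 𝔔) ∧
        ∀ (a : Λ) (s : S), (∀ x : C, a • x = s • x) → (a ∈ 𝔔 ↔ s ∈ 𝔭) := by
  classical
  have : SMulCommClass S Λ C := SMulCommClass.symm ..
  let act : Λ →+* Module.End S C := Module.toModuleEnd S (S := Λ) C
  let B : Subalgebra S (Module.End S C) := Algebra.adjoin S (Set.range act)
  have hcm : IsMulCommutative B := Algebra.isMulCommutative_adjoin S (by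
    rintro _ ⟨a, rfl⟩ _ ⟨b, rfl⟩
    rw [← map_mul, ← map_mul, mul_comm])
  let _ : CommRing B := { B.toRing with mul_comm := hcm.is_comm.comm }
  let actB : Λ →+* B := act.codRestrict B fun a => Algebra.subset_adjoin ⟨a, rfl⟩
  obtain ⟨n, g, hg⟩ := Module.Finite.exists_fin (R := S) (M := C)
  let evl : Module.End S C →ₗ[S] Fin n → C := LinearMap.pi fun i => LinearMap.applyₗ (g i)
  have hevl : Function.Injective evl := fun a b hab => LinearMap.ext_on_range hg (congrFun hab)
  have : Module.Finite S (Module.End S C) := Module.Finite.of_injective evl hevl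
  have : Module.Finite S B :=
    Module.Finite.of_injective (Subalgebra.val B).toLinearMap Subtype.coe_injective
  have hker : Module.annihilator Λ C = (⊥ : Ideal B).comap actB := by
    ext a
    rw [Ideal.mem_comap, Ideal.mem_bot, Module.mem_annihilator]
    exact ⟨fun h => Subtype.ext (LinearMap.ext h), fun h x =>
      LinearMap.congr_fun (congrArg Subtype.val h) x⟩
  rw [hker] at h𝔮
  obtain ⟨Q, hQ, hQ𝔮⟩ := Ideal.exists_minimalPrimes_comap_eq actB 𝔮 h𝔮
  have hQp : Q.IsPrime := hQ.1.1
  have hQS : Q.comap (algebraMap S B) = ⊥ := by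
    refine (Submodule.eq_bot_iff _).mpr fun s hs => by_contra fun hs0 => ?_
    refine notMem_nonZeroDivisors_of_mem_mem_minimalPrimes
      (Ideal.mem_comap.mp hs) (show Q ∈ minimalPrimes B from hQ) ?_
    refine mem_nonZeroDivisors_iff_right.mpr fun b hb => Subtype.ext (LinearMap.ext fun x => ?_)
    have h1 := LinearMap.congr_fun (congrArg Subtype.val ((mul_comm _ _).trans hb)) x
    exact (htf s _ h1).resolve_left hs0
  -- integrality over `Λ`
  have hint : actB.IsIntegral :=
    RT.Algebra.isIntegral_of_commute actB (fun _ _ => rfl) fun _ _ => mul_comm _ _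
  refine ⟨?_, fun 𝔭 h𝔭 => ?_⟩
  · have h1 : ringKrullDim S = ringKrullDim (B ⧸ Q) := by
      have hinj : Function.Injective (algebraMap S (B ⧸ Q)) := by
        rw [injective_iff_map_eq_zero]
        intro s hs
        rw [← Ideal.mem_bot, ← hQS, Ideal.mem_comap]
        exact Ideal.Quotient.eq_zero_iff_mem.mp hs
      exact le_antisymm (Algebra.le_ringKrullDim_of_isIntegral hinj)
        Algebra.ringKrullDim_le_of_isIntegral
    let f : (Λ ⧸ 𝔮) →+* B ⧸ Q := Ideal.quotientMap Q actB hQ𝔮.ge
    let _ : Algebra (Λ ⧸ 𝔮) (B ⧸ Q) := f.toAlgebra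
    have : Algebra.IsIntegral (Λ ⧸ 𝔮) (B ⧸ Q) := ⟨fun x => by
      obtain ⟨b, rfl⟩ := Ideal.Quotient.mk_surjective x
      obtain ⟨P, hP, hPb⟩ := hint b
      refine ⟨P.map (Ideal.Quotient.mk 𝔮), hP.map _, ?_⟩
      have h2 := congrArg (Ideal.Quotient.mk Q) hPb
      rw [map_zero, Polynomial.hom_eval₂] at h2
      rw [Polynomial.eval₂_map]
      exact h2⟩
    rw [h1]
    exact le_antisymm (Algebra.le_ringKrullDim_of_isIntegral
        (Ideal.quotientMap_injective' hQ𝔮.le)) Algebra.ringKrullDim_le_of_isIntegral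
  · obtain ⟨Q', hQQ', hQ'p, hQ'S⟩ :=
      Ideal.exists_ideal_over_prime_of_isIntegral 𝔭 Q (by rw [hQS]; exact bot_le)
    refine ⟨Q'.comap actB, Ideal.IsPrime.comap _, hQ𝔮 ▸ Ideal.comap_mono hQQ', fun a ha => ?_,
      fun a s hs => ?_⟩
    rotate_left
    · have e : actB a = algebraMap S B s := Subtype.ext (LinearMap.ext hs)
      rw [Ideal.mem_comap, e, ← hQ'S, Ideal.mem_comap]
    obtain ⟨p, hp, -, hcoeff, hev⟩ :=
      LinearMap.exists_monic_and_natDegree_eq_and_coeff_mem_pow_and_aeval_eq_zero S (act a) 𝔭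
        (by rintro _ ⟨x, rfl⟩; exact ha x)
    have hev' : Polynomial.aeval (actB a) p = 0 := Subtype.ext (by
      rw [Polynomial.aeval_subalgebra_coe]; exact hev)
    have h0 : Polynomial.aeval (actB a) p ∈ Q' := by rw [hev']; exact zero_mem _
    rw [Polynomial.aeval_eq_sum_range, Finset.sum_range_succ, hp.coeff_natDegree, one_smul] at h0
    have hsum : ∑ i ∈ Finset.range p.natDegree, p.coeff i • actB a ^ i ∈ Q' := sum_mem fun i hi => by
      rw [Algebra.smul_def]
      exact Q'.mul_mem_right _ (Ideal.mem_comap.mp (hQ'S.ge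
        (Ideal.pow_le_self (Nat.sub_ne_zero_of_lt (Finset.mem_range.mp hi)) (hcoeff i))))
    exact hQ'p.mem_of_pow_mem _ ((Q'.add_mem_iff_right hsum).mp h0)

end Dimension

end Fermat.Agent.RT.Lift
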