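import Fermat.Agent.LevelRaising.Lattice.Kernel
import Fermat.Agent.RT.Lift.Degeneracy

/-!
# The lemma of Ihara for the degeneracy maps at the base level

For coefficients in a local domain `O` of characteristic zero with residue field of odd
characteristic `p` and an auxiliary prime `ℓ`, `t = T_ℓ - 1 - ℓ`: if `degMap (φ₁, φ₂)` reduces to
zero then so do `t ^ 4 φᵢ`, and `(t ^ 2 φ₁, t ^ 2 φ₂)` is a value of `degStar` modulo the maximal
ideal.
-/

set_option autoImplicit false

noncomputable section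

namespace Fermat.Agent.RT.Lift

open CongruenceSubgroup Matrix.SpecialLinearGroup
open Fermat.Agent.RT.GammaH
open Fermat.Agent.LevelRaising
open Fermat.Agent.Periods (HeckeSystem systemT homT homT_comp)
open ModularCurve.Period
open IsLocalRing (residue ResidueField)
open scoped MatrixGroups Matrix

/-! ### Comparison of the operators on `Γ₀` -/

section Bridge

variable {A : Type*} [AddCommGroup A] (R : Type*) [Semiring R] [Module R A]

/-- Homomorphisms on equal groups. -/
def homEquiv {Γ' Γ : Subgroup SL(2, ℤ)} (e : Γ' = Γ) :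
    (Additive Γ →+ A) ≃ₗ[R] (Additive Γ' →+ A) :=
  LinearEquiv.ofLinearMap (GammaH.res R e.le) (GammaH.res R e.ge)
    (LinearMap.ext fun _ => AddMonoidHom.ext fun _ => rfl)
    (LinearMap.ext fun _ => AddMonoidHom.ext fun _ => rfl)

theorem gammaH_lift_top {N q : ℕ} :
    gammaH (N * q) (liftSub q (⊤ : Subgroup (ZMod N)ˣ)) = Gamma0 (N * q) := by
  rw [liftSub_top, gammaH_top]

/-- `Hom(Γ₀(L), A)` as homomorphisms on `gammaH L ⊤`. -/
def toTop (L : ℕ) : (Additive (Gamma0 L) →+ A) ≃ₗ[R]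
    (Additive (gammaH L (⊤ : Subgroup (ZMod L)ˣ)) →+ A) :=
  homEquiv R gammaH_top

/-- `Hom(Γ₀(N q), A)` as homomorphisms on the pull back of `gammaH N ⊤`. -/
def toLift (q N : ℕ) : (Additive (Gamma0 (N * q)) →+ A) ≃ₗ[R]
    (Additive (gammaH (N * q) (liftSub q (⊤ : Subgroup (ZMod N)ˣ))) →+ A) :=
  homEquiv R gammaH_lift_top

theorem opOf_homEquiv {L L' : ℕ} {Γ' Γ : Subgroup SL(2, ℤ)} (e₁ : Γ' = Gamma0 L)
    (e₂ : Γ = Gamma0 L') {ι κ : Type} [Fintype ι] [Fintype κ]
    (S : HeckeSystem (Gamma0 L) (Gamma0 L') ι) {rep : κ → GLR}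
    (h : Admissible Γ' Γ rep) (e : ι ≃ κ)
    (he : ∀ i, S.rep i * (rep (e i))⁻¹ ∈ img (Gamma0 L)) (φ : Additive (Gamma0 L) →+ A) :
    opOf h R (homEquiv R e₁ φ) = homEquiv R e₂ (S.apply φ) := by
  show opOf h R (GammaH.res R e₁.le φ) = GammaH.res R e₂.le (S.op R φ)
  rw [res_eq_opOf, res_eq_opOf, ← opOf_heckeSystem (R := R) S, opOf_comp, opOf_comp]
  refine LinearMap.congr_fun (opOf_congr _ _
    ((Equiv.prodComm Unit κ).trans (e.symm.prodCongr (Equiv.refl Unit))) fun p => ?_) φ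
  obtain ⟨⟨⟩, k⟩ := p
  simp only [Equiv.trans_apply, Equiv.prodComm_apply, Equiv.prodCongr_apply, Prod.map,
    Equiv.refl_apply, Prod.swap, one_mul, mul_one]
  have := inv_mem (he (e.symm k))
  simpa using this

theorem isIntMat_intGL {B : Matrix (Fin 2) (Fin 2) ℤ} (hB : B.det ≠ 0) :
    IsIntMat (intGL B) B := intGL_val hB

variable {N q : ℕ} (h : RaiseData q N)

theorem resDeg_toTop (φ : Additive (Gamma0 N) →+ A) :
    resDeg R q ⊤ (toTop R N φ) = toLift R q N ((RaiseData.resSys q N).apply φ) :=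
  opOf_homEquiv R gammaH_top gammaH_lift_top (RaiseData.resSys q N) _ (Equiv.refl Unit) (fun _ => by
    simp [RaiseData.resSys, unitSystem, mkSystem]) φ

theorem conjDeg_toTop (φ : Additive (Gamma0 N) →+ A) :
    conjDeg h R ⊤ (toTop R N φ) = toLift R q N (h.conjSys.apply φ) :=
  opOf_homEquiv R gammaH_top gammaH_lift_top h.conjSys _ (Equiv.refl Unit) (fun _ => by
    show intGL (alphaMat q) * (aRep q ())⁻¹ ∈ _
    rw [show intGL (alphaMat q) = aRep q () from
      (isIntMat_intGL (by simp [h.det_alphaMat, h.prime.ne_zero])).ext (isIntMat_aRep h),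
      mul_inv_cancel]
    exact one_mem _) φ

theorem corDeg_toTop (φ : Additive (Gamma0 (N * q)) →+ A) :
    corDeg h R ⊤ (toLift R q N φ) = toTop R N (h.corSys.apply φ) :=
  opOf_homEquiv R gammaH_lift_top gammaH_top h.corSys _ (Equiv.refl _) (fun i => by
    show intGL (corMat q N i) * (mapGL ℝ (cSL h i))⁻¹ ∈ _
    set c : SL(2, ℤ) := ⟨corMat q N i, h.det_corMat i⟩
    rw [show intGL (corMat q N i) = mapGL ℝ c from (mapGL_eq_intGL c).symm, ← map_inv, ← map_mul]
    refine mapGL_mem_img.2 (Gamma0_mem.2 ((ZMod.intCast_zmod_eq_zero_iff_dvd _ _).2 ?_))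
    rw [lowerLeft_mul_inv]
    rcases i with _ | x
    · refine ⟨bezQ q N + bezN q N, ?_⟩
      simp [c, corMat, cSL]
      ring
    · simp [c, corMat, cSL]) φ

theorem starDeg_toTop (φ : Additive (Gamma0 (N * q)) →+ A) :
    starDeg h R ⊤ (toLift R q N φ) = toTop R N (h.starSys.apply φ) :=
  opOf_homEquiv R gammaH_lift_top gammaH_top h.starSys _ (Equiv.refl _) (fun i => by
    show intGL (starMat q N i) * (sRep h i)⁻¹ ∈ _
    have hd : (starMat q N i).det ≠ 0 := by simp [h.det_starMat, h.prime.ne_zero]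
    suffices IsIntMat (sRep h i) (starMat q N i) by
      rw [(isIntMat_intGL hd).ext this, mul_inv_cancel]
      exact one_mem _
    rcases i with _ | x
    · convert isIntMat_sRep_none h using 1
      ext a b
      fin_cases a <;> fin_cases b <;> simp [starMat, wMat, mul_comm]
    · exact isIntMat_sRep_some h x) φ

theorem hecke_toTop {L n : ℕ} [NeZero L] [Fact n.Prime] (hn : n.Prime) (hnL : ¬ n ∣ L)
    (φ : Additive (Gamma0 L) →+ A) :
    hecke L ⊤ n R (toTop R L φ) = toTop R L (homT hn hnL R φ) := by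
  have : NeZero n := ⟨hn.ne_zero⟩
  let f : ZMod n ≃ Fin n :=
    { toFun := fun x => ⟨x.val, ZMod.val_lt x⟩
      invFun := fun j => ((j : ℕ) : ZMod n)
      left_inv := fun x => by simp
      right_inv := fun j => Fin.ext (ZMod.val_cast_of_lt j.isLt) }
  refine opOf_homEquiv R gammaH_top gammaH_top (systemT hn hnL) admissible_hRep
    ((Equiv.optionCongr f).trans (Equiv.subtypeUnivEquiv fun _ _ => hnL).symm) (fun i => ?_) φ
  rcases i with _ | x
  · show ModularForm.heckeDiagMatrix n * (mapGL ℝ _ * ModularForm.heckeDiagMatrix n)⁻¹ ∈ _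
    rw [mul_inv_rev, mul_inv_cancel_left, ← map_inv]
    exact mapGL_mem_img.2 (inv_mem (gamma0Elt_mem _))
  · show ModularForm.heckeMatrix n _ * (ModularForm.heckeMatrix n _)⁻¹ ∈ _
    simp [f]

end Bridge

/-! ### The base level statements -/

section Lattice

variable {O : Type*} [CommRing O] [IsDomain O] [IsLocalRing O] [CharZero O] {p : ℕ}
  [CharP (ResidueField O) p] {q N ℓ : ℕ} [NeZero N] [NeZero (N * q)] [hℓ : Fact ℓ.Prime]

/-- `T_ℓ - 1 - ℓ` on `Hom(Γ₀(N), A)`, in the language of `gammaH`. -/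
def tTop (N ℓ : ℕ) [Fact ℓ.Prime] (R : Type*) [Semiring R] {A : Type*} [AddCommGroup A]
    [Module R A] : Module.End R (Additive (gammaH N (⊤ : Subgroup (ZMod N)ˣ)) →+ A) :=
  hecke N ⊤ ℓ R - (1 + ℓ) • (1 : Module.End R (Additive (gammaH N (⊤ : Subgroup (ZMod N)ˣ)) →+ A))

omit [NeZero (N * q)] in
theorem tTop_toTop {A : Type*} [AddCommGroup A] (R : Type*) [Semiring R] [Module R A]
    (a : AuxPrime q N ℓ) (φ : Additive (Gamma0 N) →+ A) :
    tTop N ℓ R (toTop R N φ) = toTop R N (tOp a.prime a.not_dvd_left R φ) := by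
  rw [tTop, tOp, LinearMap.sub_apply, LinearMap.sub_apply, map_sub,
    hecke_toTop R a.prime a.not_dvd_left]
  refine congrArg (_ - ·) ?_
  simp

omit [IsLocalRing O] [NeZero N] [NeZero (N * q)] hℓ in
theorem three_torsionFree_of_charZero (r : O) (hr : 3 * r = 0) : r = 0 :=
  (mul_eq_zero.1 hr).resolve_left (by exact_mod_cast (by omega : (3 : ℕ) ≠ 0))

/-- Reduction of the values. -/
def redVal {G : Type*} [AddMonoid G] (φ : G →+ O) : G →+ ResidueField O :=
  (residue O).toAddMonoidHom.comp φ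

omit [IsDomain O] [CharZero O] [NeZero (N * q)] hℓ in
theorem redVal_tOp (a : AuxPrime q N ℓ) (φ : Additive (Gamma0 N) →+ O) :
    redVal (tOp a.prime a.not_dvd_left O φ) =
      tOp a.prime a.not_dvd_left (ResidueField O) (redVal φ) :=
  (tOp_comp _ _ O (ResidueField O) _ φ).symm

omit [IsDomain O] [CharZero O] [NeZero N] [NeZero (N * q)] hℓ in
theorem redVal_homEquiv {Γ' Γ : Subgroup SL(2, ℤ)} (e : Γ' = Γ) (φ : Additive Γ →+ O) :
    redVal (homEquiv O e φ) = homEquiv (ResidueField O) e (redVal φ) := rfl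

omit [IsDomain O] [CharZero O] [NeZero N] [NeZero (N * q)] hℓ in
theorem redVal_eq_zero_of_homEquiv {Γ' Γ : Subgroup SL(2, ℤ)} (e : Γ' = Γ) {φ : Additive Γ →+ O}
    (h : redVal (homEquiv O e φ) = 0) : redVal φ = 0 :=
  (homEquiv (ResidueField O) e).map_eq_zero_iff.1 ((redVal_homEquiv e φ).symm.trans h)

omit [IsDomain O] [CharZero O] [NeZero N] [NeZero (N * q)] hℓ in
theorem redVal_homEquiv_eq_zero {Γ' Γ : Subgroup SL(2, ℤ)} (e : Γ' = Γ) {φ : Additive Γ →+ O}
    (h : redVal φ = 0) : redVal (homEquiv O e φ) = 0 := by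
  rw [redVal_homEquiv, h, map_zero]

variable (h : RaiseData q N) (a : AuxPrime q N ℓ) (hp : p.Prime) (hp2 : p ≠ 2)
include a hp hp2

/-- **Ihara's lemma**: on a pair reducing into the kernel of `degMap`, the fourth power of
`T_ℓ - 1 - ℓ` reduces to zero. -/
theorem injective_degMap_mod (e : ℕ)
    (φ : (Additive (gammaH N (⊤ : Subgroup (ZMod N)ˣ)) →+ O) ×
      (Additive (gammaH N (⊤ : Subgroup (ZMod N)ˣ)) →+ O))
    (h0 : redVal (degMap h O ⊤ e φ) = 0) :
    redVal ((tTop N ℓ O ^ 4) φ.1) = 0 ∧ redVal ((tTop N ℓ O ^ 4) φ.2) = 0 := by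
  obtain ⟨φ₁, hφ₁⟩ := (toTop O N).surjective φ.1
  obtain ⟨φ₂, hφ₂⟩ := (toTop O N).surjective φ.2
  set T := tOp (L := N) (A := O) a.prime a.not_dvd_left O with hT
  set F := ResidueField O
  set T' := tOp (L := N) (A := F) a.prime a.not_dvd_left F with hT'
  have : NeZero ℓ := ⟨a.prime.ne_zero⟩
  have hpar : ∀ φ : Additive (Gamma0 N) →+ O, IsParabolicHom (Gamma0 N) (T' (redVal φ)) := by
    intro φ γ hγ
    rw [hT', ← redVal_tOp a φ]
    show residue O (tOp a.prime a.not_dvd_left O φ (Additive.ofMul γ)) = 0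
    rw [tOp_apply, AddMonoidHom.sub_apply, AddMonoidHom.smul_apply,
      homT_apply_parabolic a.prime a.not_dvd_left
        ((Int.natCast_dvd_natCast.2 (dvd_mul_right N q)).trans a.dvd_sub') (fun n x hn hx => by
          rw [nsmul_eq_mul] at hx
          exact (mul_eq_zero.1 hx).resolve_left (Nat.cast_ne_zero.2 hn)) φ γ hγ,
      sub_self, map_zero]
  have hker : (RaiseData.resSys q N).apply (redVal φ₁) + h.conjSys.apply (redVal φ₂) = 0 := by
    have e1 : redVal ((RaiseData.resSys q N).apply φ₁ + h.conjSys.apply φ₂) = 0 := by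
      rw [degMap_apply, ← hφ₁, ← hφ₂, diamond_top, resDeg_toTop, conjDeg_toTop, ← map_add] at h0
      exact redVal_eq_zero_of_homEquiv gammaH_lift_top h0
    rw [← e1]
    unfold redVal
    rw [HeckeSystem.apply_comp, HeckeSystem.apply_comp]
    exact AddMonoidHom.ext fun x => (map_add (residue O) _ _).symm
  have hker' : (RaiseData.resSys q N).apply (T' (redVal φ₁)) +
      h.conjSys.apply (T' (redVal φ₂)) = 0 := by
    have hc : ∀ w : Additive (Gamma0 N) →+ F,
        tOp a.prime a.not_dvd F ((RaiseData.resSys q N).apply w) =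
          (RaiseData.resSys q N).apply (T' w) ∧
        tOp a.prime a.not_dvd F (h.conjSys.apply w) = h.conjSys.apply (T' w) := fun w => by
      constructor
      · show homT a.prime a.not_dvd F ((RaiseData.resSys q N).op F w) -
          (1 + ℓ) • (RaiseData.resSys q N).op F w =
            (RaiseData.resSys q N).op F (homT a.prime a.not_dvd_left F w - (1 + ℓ) • w)
        rw [map_sub, map_nsmul]
        exact congrArg (· - _) (homT_res F a.prime a.not_dvd_left a.not_dvd w)
      · show homT a.prime a.not_dvd F (h.conjSys.op F w) -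
          (1 + ℓ) • h.conjSys.op F w =
            h.conjSys.op F (homT a.prime a.not_dvd_left F w - (1 + ℓ) • w)
        rw [map_sub, map_nsmul]
        exact congrArg (· - _) (h.homT_conj F a.prime a.not_dvd_left a.not_dvd w)
    rw [← (hc _).1, ← (hc _).2, ← map_add, hker, map_zero]
  obtain ⟨z1, z2⟩ := h.tOp_cube_eq_zero a hp hp2 (hpar φ₁) (hpar φ₂) hker'
  have key : ∀ φ : Additive (Gamma0 N) →+ O, T' (T' (T' (T' (redVal φ)))) = 0 →
      redVal ((tTop N ℓ O ^ 4) (toTop O N φ)) = 0 := by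
    intro φ hφ
    rw [hT', ← redVal_tOp a, ← redVal_tOp a, ← redVal_tOp a, ← redVal_tOp a] at hφ
    simp only [pow_succ', pow_zero, mul_one, Module.End.mul_apply, tTop_toTop O a]
    exact redVal_homEquiv_eq_zero gammaH_top hφ
  exact ⟨hφ₁ ▸ key φ₁ z1, hφ₂ ▸ key φ₂ z2⟩

omit [NeZero (N * q)] in
/-- The crossing homomorphisms show that the image of `degStar` contains every pair
`(t ^ 2 φ₁, t ^ 2 φ₂)` modulo the maximal ideal. -/
theorem surjective_degStar_mod (e : ℕ)
    (φ : (Additive (gammaH N (⊤ : Subgroup (ZMod N)ˣ)) →+ O) ×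
      (Additive (gammaH N (⊤ : Subgroup (ZMod N)ˣ)) →+ O)) :
    ∃ x : Additive (gammaH (N * q) (liftSub q (⊤ : Subgroup (ZMod N)ˣ))) →+ O,
      redVal ((degStar h O ⊤ e x).1 - (tTop N ℓ O ^ 2) φ.1) = 0 ∧
        redVal ((degStar h O ⊤ e x).2 - (tTop N ℓ O ^ 2) φ.2) = 0 := by
  obtain ⟨φ₁, hφ₁⟩ := (toTop O N).surjective φ.1
  obtain ⟨φ₂, hφ₂⟩ := (toTop O N).surjective φ.2
  obtain ⟨x, h1, h2⟩ := h.exists_residue_tOp_sq a hp hp2 three_torsionFree_of_charZero φ₁ φ₂
  refine ⟨toLift O q N x, ?_, ?_⟩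
  · rw [degStar_apply, ← hφ₁]
    simp only [corDeg_toTop, pow_two, Module.End.mul_apply, tTop_toTop O a, ← map_sub]
    refine AddMonoidHom.ext fun y => ?_
    show residue O (_ - _) = 0
    rw [map_sub, sub_eq_zero]
    exact DFunLike.congr_fun h1 _
  · rw [degStar_apply, ← hφ₂]
    simp only [diamond_top, starDeg_toTop, pow_two, Module.End.mul_apply, tTop_toTop O a, ← map_sub]
    refine AddMonoidHom.ext fun y => ?_
    show residue O (_ - _) = 0
    rw [map_sub, sub_eq_zero]
    exact DFunLike.congr_fun h2 _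

end Lattice

end Fermat.Agent.RT.Lift
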