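import Fermat.Agent.RT.Lift.OldRoot
import Fermat.Agent.RT.Lift.Local
import Fermat.Agent.RT.Level.Congruent

/-!
# No new part at a level raising prime

If every form congruent to the residual system at level `M q` is old at `q`, the transpose of the
degeneracy maps is injective on the localised module of level `M q`: a class of the kernel gives an
eigenform with `a_q = ±1`, which is not a root of `X ^ 2 - a X + q` for `a` the eigenvalue of `T_q`
of an eigenform of level prime to `q`.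
-/

set_option autoImplicit false

noncomputable section

open CongruenceSubgroup UpperHalfPlane ModularFormClass Matrix.SpecialLinearGroup
open ModularCurve.Period
open scoped MatrixGroups ModularForm ComplexConjugate

namespace Fermat.Agent.RT.Lift

open Fermat.Agent.RT.GammaH
open Fermat.Agent.Periods.Congruence (per per_opOf per_add_conj_injective)
open Fermat.Agent.LevelRaising (RaiseData bezQ bezN)
open IsLocalRing MvPolynomial

/-! ### Forms of full `Γ₀` -/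

section Top

variable {L N : ℕ} [NeZero L] {K : Subgroup (ZMod L)ˣ}

theorem isChiForm_one (hK : K = ⊤) (f : FormH L K) : IsChiForm (1 : (ZMod L)ˣ →* ℂˣ) f := fun u =>
  DFunLike.coe_injective <| by
    rw [coe_diaForm, MonoidHom.one_apply, Units.val_one, one_smul]
    exact Poincare.cuspForm_slash_eq_self f (by rw [hK, gammaH_top]; exact gamma0Elt_mem _)

/-- A form on `Γ_H`, `H` everything, as a form on `Γ₀`. -/
def topForm [NeZero N] (hK : K = ⊤) (hN : N = L) (f : FormH L K) : CuspForm (Gamma0 N) 2 :=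
  Newforms.mkCusp f (fun γ hγ => Poincare.cuspForm_slash_eq_self f
    (by subst hN; rw [hK, gammaH_top]; exact hγ)) (isCuspFn_formH f)

theorem qCoeff_topForm [NeZero N] (hK : K = ⊤) (hN : N = L) (f : FormH L K) (n : ℕ) :
    qCoeff (topForm hK hN f) n = qCoeff f n := rfl

theorem hOp_topForm [NeZero N] (hK : K = ⊤) (hN : N = L) {p : ℕ} [hp : Fact p.Prime]
    (f : FormH L K) : Newforms.hOp N hp.out (topForm hK hN f) = topForm hK hN (heckeForm p f) := by
  subst hN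
  refine Newforms.eq_of_forall_qCoeff fun n => ?_
  simp only [Newforms.hOp, HeckeDuality.coeff_heckeOp, qCoeff_topForm]
  rw [qCoeff_heckeForm (isChiForm_one hK f)]
  simp only [seqOp]
  congr 1
  split_ifs with hn
  · congr 1
    rw [HeckeDuality.eulerWeight, nebWeight]
    split_ifs with hL
    · rw [(toDir _).map_nonunit fun hu => hp.out.not_dvd_one
        (((ZMod.isUnit_iff_coprime _ _).1 hu) ▸ Nat.dvd_gcd dvd_rfl hL), zero_mul]
    · rw [← ZMod.coe_unitOfCoprime p ((Nat.Prime.coprime_iff_not_dvd hp.out).2 hL), toDir_coe,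
        MonoidHom.one_apply, Units.val_one, one_mul]
  · rfl

end Top

/-! ### The kernel of the two traces on forms -/

section Kernel

variable {M q : ℕ} (h : RaiseData q M)

/-- `W (1, x; 0, q)` divided by `q`. -/
def tSL (x : Fin q) : SL(2, ℤ) :=
  ⟨!![bezQ q M, bezQ q M * (x : ℕ) - bezN q M; (M : ℤ), (M : ℤ) * (x : ℕ) + q], by
    rw [Matrix.det_fin_two_of]; linear_combination h.bez⟩

/-- Representatives of `Γ₀(M q) \ Γ₀(M)` adapted to `U_q ∘ W`. -/
def uRep : Option (Fin q) → GLR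
  | none => 1
  | some x => mapGL ℝ (tSL h x)

theorem isReps_uRep : IsReps (gammaH (M * q) (liftSub q (⊤ : Subgroup (ZMod M)ˣ)))
    (img (gammaH M (⊤ : Subgroup (ZMod M)ˣ)) : Set GLR) (uRep h) := by
  have hM : ¬ (q : ℤ) ∣ (M : ℤ) := fun hd => h.not_dvd (Int.natCast_dvd_natCast.1 hd)
  have ht : ∀ x, tSL h x ∈ gammaH M (⊤ : Subgroup (ZMod M)ˣ) := fun x => by
    rw [gammaH_top]
    exact Gamma0_mem.2 (by simp [tSL])
  refine (isReps_cRep h).of_card (fun i => ?_) (fun i j hij => ?_) le_rfl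
  · rcases i with _ | x
    · exact one_mem _
    · exact mapGL_mem_img.2 (ht x)
  rcases i with _ | x <;> rcases j with _ | y
  · rfl
  · refine absurd ?_ hM
    simp only [uRep, one_mul, ← map_inv, mapGL_mem_img] at hij
    have hd := dvd_of_mem_lift hij
    rw [Matrix.SpecialLinearGroup.coe_inv, Matrix.adjugate_fin_two] at hd
    simpa [tSL] using hd
  · refine absurd ?_ hM
    simp only [uRep, inv_one, mul_one, mapGL_mem_img] at hij
    simpa [tSL] using dvd_of_mem_lift hij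
  · simp only [uRep, ← map_inv, ← map_mul, mapGL_mem_img] at hij
    have hd := dvd_of_mem_lift hij
    rw [lowerLeft_mul_inv] at hd
    simp [tSL] at hd
    have h1 : (q : ℤ) ∣ (M : ℤ) * (M : ℤ) * (((y : ℕ) : ℤ) - (x : ℕ)) := by
      ring_nf at hd ⊢; exact hd
    have := Int.eq_zero_of_dvd_of_natAbs_lt_natAbs
      ((h.prime_int.dvd_or_dvd h1).resolve_left fun h2 => hM
        ((h.prime_int.dvd_or_dvd h2).elim id id)) (by omega)
    congr 1
    ext
    omega

variable [NeZero (M * q)] [Fact q.Prime]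

omit [NeZero (M * q)] in
theorem slashSum_sRep_eq (f : ℍ → ℂ) :
    slashSum (sRep h) f = f ∣[(2 : ℤ)] sRep h none + slashSum (hRep (M * q) q) f := by
  rw [slashSum, Fintype.sum_option, slashSum_hRep_of_dvd (dvd_mul_left q M),
    ModularForm.heckeU_def, ← Fin.sum_univ_eq_sum_range
      (fun j => f ∣[(2 : ℤ)] ModularForm.heckeMatrix q j)]
  rfl

omit [NeZero (M * q)] in
theorem heckeU_slash_sRep_none (f : ℍ → ℂ) :
    slashSum (hRep (M * q) q) (f ∣[(2 : ℤ)] sRep h none) = ∑ x : Fin q, f ∣[(2 : ℤ)] tSL h x := by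
  rw [slashSum_hRep_of_dvd (dvd_mul_left q M), ModularForm.heckeU_def,
    ← Fin.sum_univ_eq_sum_range
      (fun j => (f ∣[(2 : ℤ)] sRep h none) ∣[(2 : ℤ)] ModularForm.heckeMatrix q j)]
  refine Finset.sum_congr rfl fun x _ => ?_
  rw [← SlashAction.slash_mul]
  refine Newforms.ALData.slash_two_of_smul (g' := (mapGL ℝ (tSL h x) : GL (Fin 2) ℝ))
    (Nat.cast_pos.2 h.prime.pos) ?_ f
  rw [Units.val_mul, (isIntMat_sRep_none h), ModularForm.val_heckeMatrix h.prime.ne_zero,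
    Newforms.mapGL_eq_realMat]
  ext a b
  fin_cases a <;> fin_cases b <;>
    simp [tSL, Newforms.realMat, Matrix.mul_apply, Fin.sum_univ_two] <;> ring

/-- **On the kernel of the traces `U_q` squares to one.** -/
theorem heckeForm_sq_of_kernel (f : FormH (M * q) (liftSub q (⊤ : Subgroup (ZMod M)ˣ)))
    (hc : slashSum (cRep h) f = 0) (hs : slashSum (sRep h) f = 0) :
    heckeForm q (heckeForm q f) = f := by
  refine DFunLike.coe_injective ?_
  rw [slashSum_sRep_eq] at hs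
  rw [coe_heckeForm, coe_heckeForm, eq_neg_of_add_eq_zero_right hs]
  have hU : slashSum (hRep (M * q) q) (-(⇑f ∣[(2 : ℤ)] sRep h none)) =
      -slashSum (hRep (M * q) q) (⇑f ∣[(2 : ℤ)] sRep h none) := by
    simp [slashSum, Finset.sum_neg_distrib]
  rw [hU, heckeU_slash_sRep_none]
  have hrep : slashSum (cRep h) ⇑f = slashSum (uRep h) ⇑f :=
    slashSum_eq_of_isReps (isReps_cRep h) (isReps_uRep h)
      fun γ hγ => Poincare.cuspForm_slash_eq_self f hγ
  rw [hrep, slashSum, Fintype.sum_option] at hc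
  refine (eq_neg_of_add_eq_zero_left ?_).symm
  convert hc using 2
  · exact (SlashAction.slash_one _ _).symm
  · rfl

end Kernel

/-! ### Coset operators on periods -/

theorem slashSum_eq_zero_of_opOf {L M : ℕ} [NeZero L] [NeZero M] {K : Subgroup (ZMod L)ˣ}
    {K₀ : Subgroup (ZMod M)ˣ} {ι : Type} [Fintype ι] {rep : ι → GLR}
    (hadm : Admissible (gammaH L K) (gammaH M K₀) rep)
    (hint : ∀ i, ∃ A, IsIntMat (rep i) A ∧ 0 < A.det) (f g : FormH L K)
    (h0 : opOf hadm ℂ (per f + conjHom (per g)) = 0) :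
    slashSum rep f = 0 ∧ slashSum rep g = 0 := by
  let F : FormH L K → FormH M K₀ := fun f => mkFormH (slashSum rep f)
    (fun _ hγ => slashSum_inv hadm (fun _ h => Poincare.cuspForm_slash_eq_self f h) hγ)
    (Finset.sum_induction _ (Newforms.IsCuspFn 2) (fun _ _ => Newforms.IsCuspFn.add)
      Newforms.IsCuspFn.zero fun i _ => by
        obtain ⟨A, hA, hd⟩ := hint i
        exact isCuspFn_slash (isCuspFn_formH f) hA hd.ne')
  have hper : ∀ f, per (F f) = opOf hadm ℂ (per f) := fun f =>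
    per_opOf hadm (fun i => by
      obtain ⟨A, hA, hd⟩ := hint i
      exact det_pos_of_isIntMat hA hd) Gamma_le_gammaH f _ rfl
  have hconj : opOf hadm ℂ (conjHom (per g)) = conjHom (opOf hadm ℂ (per g)) :=
    opOf_comp_coeff _ _ _
  rw [map_add, hconj, ← hper, ← hper] at h0
  obtain ⟨h1, h2⟩ := per_add_conj_injective Gamma_le_gammaH
    (fun γ => DFunLike.congr_fun h0 (Additive.ofMul γ))
  exact ⟨congrArg DFunLike.coe h1, congrArg DFunLike.coe h2⟩

/-! ### Injectivity -/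

variable {O : Type} [CommRing O] [IsDomain O] [IsDiscreteValuationRing O] [Algebra O ℂ]
  {M q : ℕ} [NeZero M] [NeZero (M * q)] {S : Finset ℕ} {abar : ℕ → ResidueField O}

/-- A class of the kernel killed by `r` vanishes if every eigenclass of the localised module at
which `r` vanishes has, when `a_q ^ 2 = 1` and congruent, an old companion. -/
theorem eq_zero_of_degStarH (h : RaiseData q M) (hinj : Function.Injective (algebraMap O ℂ))
    (hL : Squarefree (M * q)) (hS : ∀ v : ℕ, v.Prime → v ∣ M * q → v ∈ S)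
    (hEis : ∃ ℓ : ℕ, ℓ.Prime ∧ ℓ ∉ S ∧ abar ℓ ≠ 1 + (ℓ : ResidueField O))
    {e : OpRing O (M * q) S}
    (he : IsLocalizer (resIdeal S abar (M * q))
      (HomMod O S (liftSub q (⊤ : Subgroup (ZMod M)ˣ)) O) e)
    (r : OpRing O (M * q) S)
    (hold : ∀ (θ : OpRing O (M * q) S →ₐ[O] ℂ) (φ : HomC (liftSub q (⊤ : Subgroup (ZMod M)ˣ))),
      φ ≠ 0 →
      φ ∈ parabolicHoms ℂ (gammaH (M * q) (liftSub q (⊤ : Subgroup (ZMod M)ˣ))) ℂ →
      (∀ b, opC O S (liftSub q (⊤ : Subgroup (ZMod M)ˣ)) b φ = θ b • φ) →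
      (∀ b, localAct O e (HomMod O S (liftSub q (⊤ : Subgroup (ZMod M)ˣ)) O) b = 0 → θ b = 0) →
      θ r = 0 →
      ∀ E : CuspForm (Gamma0 (q * M)) 2, IsCongruentForm S abar E →
      (∀ (ℓ : ℕ) (hℓ : ℓ.Prime) (hℓS : ℓ ∉ S), qCoeff E ℓ = θ (X (Sum.inr ⟨ℓ, hℓ, hℓS⟩))) →
      ∃ (M' : ℕ) (g : CuspForm (Gamma0 M') 2), M' ∣ M ∧ g.IsNormalizedEigenform ∧
        ∀ ℓ : ℕ, ℓ.Prime → ℓ ∉ S → qCoeff g ℓ = qCoeff E ℓ)
    (k : ℕ) {x : HomMod O S (liftSub q (⊤ : Subgroup (ZMod M)ˣ)) O}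
    (hx : x ∈ localPart O e (HomMod O S (liftSub q (⊤ : Subgroup (ZMod M)ˣ)) O))
    (hx0 : degStarH O S h ⊤ k x = 0) (hxr : r • x = 0) : x = 0 := by
  classical
  by_contra hne
  have : Fact q.Prime := ⟨h.prime⟩
  have : NeZero q := ⟨h.prime.ne_zero⟩
  have : NeZero (q * M) := ⟨mul_ne_zero h.prime.ne_zero (NeZero.ne M)⟩
  have htop : (liftSub q (⊤ : Subgroup (ZMod M)ˣ)) = ⊤ := liftSub_top
  have hneg : -1 ∈ (liftSub q (⊤ : Subgroup (ZMod M)ˣ)) := htop ▸ Subgroup.mem_top _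
  have hqS : q ∈ S := hS q h.prime (dvd_mul_left q M)
  obtain ⟨ℓ₀, hℓ₀, hℓ₀S, hEis₀⟩ := hEis
  obtain ⟨P, hP, hpar⟩ := exists_parabolicOp (K := (liftSub q (⊤ : Subgroup (ZMod M)ˣ))) S abar hL hneg hℓ₀ hℓ₀S
    (fun hd => hℓ₀S (hS ℓ₀ hℓ₀ hd)) hEis₀
  -- the complex span of the kernel
  set s : Set (HomC (liftSub q (⊤ : Subgroup (ZMod M)ˣ))) := (fun y => opC O S (liftSub q (⊤ : Subgroup (ZMod M)ˣ)) P (toHomC y)) ''
    {y : HomMod O S (liftSub q (⊤ : Subgroup (ZMod M)ˣ)) O | y ∈ localPart O e (HomMod O S (liftSub q (⊤ : Subgroup (ZMod M)ˣ)) O) ∧ degStarH O S h ⊤ k y = 0 ∧ r • y = 0} with hs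
  set W := Submodule.span ℂ s with hW
  have hxP : opC O S (liftSub q (⊤ : Subgroup (ZMod M)ˣ)) P (toHomC x) ≠ 0 := fun h0 => hne <| by
    rw [← toHomC_smul] at h0
    exact he.eq_zero_of_smul_eq_zero hP hx (toHomC_injective hinj (h0.trans (map_zero toHomC).symm))
  have hWne : W ≠ ⊥ :=
    (Submodule.ne_bot_iff _).2 ⟨_, Submodule.subset_span ⟨x, ⟨hx, hx0, hxr⟩, rfl⟩, hxP⟩
  have hWinv : ∀ a : OpRing O (M * q) S, ∀ w ∈ W, opC O S (liftSub q (⊤ : Subgroup (ZMod M)ˣ)) a w ∈ W := fun a w hw => by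
    induction hw using Submodule.span_induction with
    | mem z hz =>
      obtain ⟨y, ⟨hy, hy0, hyr⟩, rfl⟩ := hz
      refine Submodule.subset_span ⟨a • y, ⟨smul_mem_localPart a hy, ?_, ?_⟩, ?_⟩
      · rw [degStarH_smul h hqS, hy0, smul_zero]
      · rw [smul_comm r a, hyr, smul_zero]
      · show opC O S (liftSub q (⊤ : Subgroup (ZMod M)ˣ)) P (toHomC (a • y)) = opC O S (liftSub q (⊤ : Subgroup (ZMod M)ˣ)) a (opC O S (liftSub q (⊤ : Subgroup (ZMod M)ˣ)) P (toHomC y))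
        rw [← toHomC_smul, ← toHomC_smul, ← toHomC_smul, smul_comm]
    | zero => rw [map_zero]; exact zero_mem _
    | add u v _ _ hu hv => rw [map_add]; exact add_mem hu hv
    | smul c u _ hu => rw [map_smul]; exact Submodule.smul_mem _ c hu
  obtain ⟨θ, v, hvW, hv, heig, hθ⟩ := exists_system (e := e) (P := P) hWne hWinv
    (Submodule.span_mono (Set.image_mono fun y hy => hy.1))
  have hθr : θ r = 0 := by
    have hker : W ≤ LinearMap.ker (opC O S (liftSub q (⊤ : Subgroup (ZMod M)ˣ)) r) :=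
      Submodule.span_le.2 <| by
        rintro _ ⟨y, ⟨-, -, hyr⟩, rfl⟩
        show opC O S (liftSub q (⊤ : Subgroup (ZMod M)ˣ)) r (opC O S (liftSub q (⊤ : Subgroup (ZMod M)ˣ)) P (toHomC y)) = 0
        rw [← toHomC_smul, ← toHomC_smul, smul_comm, hyr, smul_zero, map_zero]
    exact (smul_eq_zero.1 ((heig r).symm.trans (hker hvW))).resolve_right hv
  -- the class is parabolic and killed by both traces
  have hvpar : v ∈ parabolicHoms ℂ (gammaH (M * q) (liftSub q (⊤ : Subgroup (ZMod M)ˣ))) ℂ := by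
    refine (Submodule.span_le.2 ?_ : W ≤ _) hvW
    rintro _ ⟨y, -, rfl⟩
    exact hpar ℂ (toHomMod (toHomC y))
  have hkill : corDeg h ℂ ⊤ v = 0 ∧ starDeg h ℂ ⊤ v = 0 := by
    refine ⟨(Submodule.span_le.2 ?_ : W ≤ LinearMap.ker (corDeg h ℂ (⊤ : Subgroup (ZMod M)ˣ))) hvW,
      (Submodule.span_le.2 ?_ : W ≤ LinearMap.ker (starDeg h ℂ (⊤ : Subgroup (ZMod M)ˣ))) hvW⟩
    all_goals
      rintro _ ⟨y, ⟨hy, hy0, -⟩, rfl⟩
      have h1 : degStarH O S h ⊤ k (P • y) = 0 := by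
        rw [degStarH_smul h hqS, hy0, smul_zero]
      have ec : corDeg h O ⊤ (toHomMod.symm (P • y)) = 0 := congrArg Prod.fst h1
      have es : starDeg h O ⊤ (toHomMod.symm (P • y)) = 0 :=
        (diamond_top O (qUnit h ^ k) _).symm.trans (congrArg Prod.snd h1)
      simp only [SetLike.mem_coe, LinearMap.mem_ker, ← toHomC_smul]
    · show corDeg h ℂ ⊤ ((algebraMap O ℂ).toAddMonoidHom.comp (toHomMod.symm (P • y))) = 0
      unfold corDeg at ec ⊢
      rw [opOf_comp_coeff (R := O), ec]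
      exact AddMonoidHom.comp_zero _
    · show starDeg h ℂ ⊤ ((algebraMap O ℂ).toAddMonoidHom.comp (toHomMod.symm (P • y))) = 0
      unfold starDeg at es ⊢
      rw [opOf_comp_coeff (R := O), es]
      exact AddMonoidHom.comp_zero _
  obtain ⟨f, g, hfg⟩ := exists_per_add_conjHom hneg hvpar
  rw [hfg] at hkill
  have hintc : ∀ i, ∃ A, IsIntMat (cRep h i) A ∧ 0 < A.det := fun i =>
    ⟨_, isIntMat_mapGL (cSL h i), by rw [Matrix.SpecialLinearGroup.det_coe]; exact one_pos⟩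
  have hints : ∀ i, ∃ A, IsIntMat (sRep h i) A ∧ 0 < A.det := fun i => by
    obtain ⟨⟨A, hA, hd, -⟩, -⟩ := sRep_mem h (K := (⊤ : Subgroup (ZMod M)ˣ)) i
    exact ⟨A, hA, hd ▸ Int.natCast_pos.2 (by simpa using h.prime.pos)⟩
  obtain ⟨hcf, hcg⟩ := slashSum_eq_zero_of_opOf (admissible_cRep h) hintc f g hkill.1
  obtain ⟨hsf, hsg⟩ := slashSum_eq_zero_of_opOf (admissible_sRep h) hints f g hkill.2
  -- the system on the two components
  let aT : ℕ → ℂ := fun m =>
    if hm : m.Prime ∧ m ∉ S then θ (X (Sum.inr ⟨m, hm⟩)) else 0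
  have hfgeig : ∀ (ℓ : ℕ) [Fact ℓ.Prime], ℓ ∉ S →
      heckeForm ℓ f = aT ℓ • f ∧ heckeForm ℓ g = conj (aT ℓ) • g := fun ℓ hℓ hℓS => by
    have hT : hecke (M * q) (liftSub q (⊤ : Subgroup (ZMod M)ˣ)) ℓ ℂ v = aT ℓ • v := by
      simp only [aT]
      rw [dif_pos ⟨hℓ.out, hℓS⟩]
      have := heig (X (Sum.inr ⟨ℓ, hℓ.out, hℓS⟩))
      rwa [opC_inr] at this
    rw [hfg, map_add, hecke_conjHom, ← per_heckeForm, ← per_heckeForm] at hT
    have key : per (heckeForm ℓ f - aT ℓ • f) +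
        conjHom (per (heckeForm ℓ g - conj (aT ℓ) • g)) = 0 := by
      refine AddMonoidHom.ext fun z => ?_
      have hz := DFunLike.congr_fun hT z
      simp only [per_sub, per_smul, AddMonoidHom.add_apply, AddMonoidHom.sub_apply, conjHom_apply,
        AddMonoidHom.smul_apply, AddMonoidHom.zero_apply, smul_eq_mul, map_sub, map_mul,
        Complex.conj_conj] at hz ⊢
      linear_combination hz
    obtain ⟨h1, h2⟩ := per_add_conj_injective Gamma_le_gammaH
      (fun γ => DFunLike.congr_fun key (Additive.ofMul γ))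
    exact ⟨sub_eq_zero.1 h1, sub_eq_zero.1 h2⟩
  -- an eigenform with `a_q = ± 1`
  have build : ∀ (G : FormH (M * q) (liftSub q (⊤ : Subgroup (ZMod M)ˣ))) (lam : ℕ → ℂ), G ≠ 0 → slashSum (cRep h) G = 0 →
      slashSum (sRep h) G = 0 →
      (∀ (ℓ : ℕ) [Fact ℓ.Prime], ℓ ∉ S → heckeForm ℓ G = lam ℓ • G) →
      ∃ E : CuspForm (Gamma0 (q * M)) 2, E.IsNormalizedEigenform ∧ qCoeff E q ^ 2 = 1 ∧
        ∀ ℓ : ℕ, ℓ.Prime → ℓ ∉ S → qCoeff E ℓ = lam ℓ := by
    intro G lam hG hGc hGs hGl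
    set G₁ := topForm (N := q * M) htop (mul_comm q M) G
    set U := Newforms.hOp (q * M) h.prime
    have hG₁ : G₁ ≠ 0 := fun h0 => hG (formH_eq_zero fun n => by
      rw [← qCoeff_topForm (N := q * M) htop (mul_comm q M) G]
      show qCoeff G₁ n = 0
      rw [h0]
      exact (Newforms.coeffLin (N := q * M) (k := 2) n).map_zero)
    have hUU : U (U G₁) = G₁ := by
      rw [hOp_topForm, hOp_topForm, heckeForm_sq_of_kernel h G hGc hGs]
    have hTl : ∀ ℓ (hℓ : ℓ.Prime), ℓ ∉ S →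
        Newforms.hOp (q * M) hℓ G₁ = lam ℓ • G₁ := fun ℓ hℓ hℓS => by
      have : Fact ℓ.Prime := ⟨hℓ⟩
      rw [hOp_topForm, hGl ℓ hℓS]
      exact Newforms.eq_of_forall_qCoeff fun n => by
        rw [qCoeff_topForm, qCoeff_formH_smul, Newforms.qCoeff_smul, qCoeff_topForm]
    obtain ⟨ε, hε, hne'⟩ : ∃ ε : ℂ, ε ^ 2 = 1 ∧ G₁ + ε • U G₁ ≠ 0 := by
      by_cases h1 : G₁ + (1 : ℂ) • U G₁ = 0
      · refine ⟨-1, by norm_num, fun h2 => hG₁ ?_⟩
        have h3 : (2 : ℂ) • G₁ = 0 := by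
          calc (2 : ℂ) • G₁ = (G₁ + (1 : ℂ) • U G₁) + (G₁ + (-1 : ℂ) • U G₁) := by module
            _ = 0 := by rw [h1, h2, add_zero]
        exact (smul_eq_zero.1 h3).resolve_left two_ne_zero
      · exact ⟨1, by norm_num, h1⟩
    obtain ⟨E, hE, hEc⟩ := Newforms.exists_eigenform_of_eigen hne' (fun ℓ => ℓ ∉ S ∨ ℓ = q)
      (fun ℓ => if ℓ = q then ε else lam ℓ) fun ℓ hℓ hP' => by
        by_cases hℓq : ℓ = q
        · subst hℓq
          rw [if_pos rfl]
          show U _ = _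
          rw [map_add, map_smul, hUU, smul_add, smul_smul, ← pow_two, hε, one_smul, add_comm]
        · rw [if_neg hℓq, map_add, map_smul, smul_add, smul_comm (lam ℓ) ε]
          have hℓS := hP'.resolve_right hℓq
          rw [hTl ℓ hℓ hℓS, ← Module.End.mul_apply, (Newforms.hOp_commute hℓ h.prime).eq,
            Module.End.mul_apply, hTl ℓ hℓ hℓS, map_smul]
    refine ⟨E, hE, ?_, fun ℓ hℓ hℓS => ?_⟩
    · rw [hEc q h.prime (Or.inr rfl), if_pos rfl, hε]
    · rw [hEc ℓ hℓ (Or.inl hℓS), if_neg fun hℓq => hℓS (by rw [show ℓ = q from hℓq]; exact hqS)]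
  obtain ⟨E, hE, hEq, hEθ⟩ : ∃ E : CuspForm (Gamma0 (q * M)) 2, E.IsNormalizedEigenform ∧
      qCoeff E q ^ 2 = 1 ∧ ∀ ℓ : ℕ, ℓ.Prime → ℓ ∉ S → qCoeff E ℓ = aT ℓ := by
    by_cases hf0 : f = 0
    · have hg0 : g ≠ 0 := fun hg0 => hv (by
        rw [hfg, hf0, hg0, Periods.Congruence.per_zero Gamma_le_gammaH]; simp [conjHom])
      obtain ⟨E, hE, hEq, hEl⟩ := build g (fun ℓ => conj (aT ℓ)) hg0 hcg hsg
        fun ℓ _ hℓS => (hfgeig ℓ hℓS).2
      refine ⟨E, hE, hEq, fun ℓ hℓ hℓS => ?_⟩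
      have h1 := Newforms.conj_qCoeff hE hℓ fun hd => hℓS (hS ℓ hℓ (mul_comm q M ▸ hd))
      rw [hEl ℓ hℓ hℓS] at h1 ⊢
      exact h1.symm.trans (Complex.conj_conj _)
    · exact build f aT hf0 hcf hsf fun ℓ _ hℓS => (hfgeig ℓ hℓS).1
  -- it is congruent to the residual system
  obtain ⟨red, hred⟩ := exists_red (O := O) hinj
  let incl : integralClosure ℤ ℂ →+* integralClosure O ℂ :=
    { toFun := fun z => ⟨z.1, z.2.tower_top⟩
      map_one' := rfl, map_mul' := fun _ _ => rfl, map_zero' := rfl, map_add' := fun _ _ => rfl }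
  have hEcong : IsCongruentForm S abar E := by
    refine ⟨hE, red.comp incl, fun ℓ hℓ hℓS z hz => ?_⟩
    have hzθ : ((incl z : integralClosure O ℂ) : ℂ) = θ (X (Sum.inr ⟨ℓ, hℓ, hℓS⟩)) := by
      show (z : ℂ) = _
      rw [hz, hEθ ℓ hℓ hℓS]
      simp only [aT]
      rw [dif_pos ⟨hℓ, hℓS⟩]
    rw [RingHom.comp_apply, red_character he θ hθ hred _ hzθ, opRes_inr]
  obtain ⟨M', g', hM', hg', heq⟩ := hold θ v hv hvpar heig hθ hθr E hEcong fun ℓ hℓ hℓS => by
    rw [hEθ ℓ hℓ hℓS]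
    exact dif_pos ⟨hℓ, hℓS⟩
  have hroot := qCoeff_root_of_old h.prime h.not_dvd hM' hE hg' S heq
  have : NeZero M' := ⟨fun h0 => NeZero.ne M (Nat.eq_zero_of_zero_dvd (h0 ▸ hM'))⟩
  have hqM' : ¬ q ∣ M' := fun hd => h.not_dvd (hd.trans hM')
  rcases (sq_eq_one_iff).1 hEq with h1 | h1
  · exact qCoeff_ne_mul_succ h.prime hqM' hg' (Or.inl rfl)
      (by rw [h1] at hroot; linear_combination -hroot)
  · exact qCoeff_ne_mul_succ h.prime hqM' hg' (Or.inr rfl)
      (by rw [h1] at hroot; linear_combination hroot)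

/-- **No new part at `q`.** -/
theorem injective_degStarH (h : RaiseData q M) (hinj : Function.Injective (algebraMap O ℂ))
    (hL : Squarefree (M * q)) (hS : ∀ v : ℕ, v.Prime → v ∣ M * q → v ∈ S)
    (hEis : ∃ ℓ : ℕ, ℓ.Prime ∧ ℓ ∉ S ∧ abar ℓ ≠ 1 + (ℓ : ResidueField O))
    {e : OpRing O (M * q) S}
    (he : IsLocalizer (resIdeal S abar (M * q))
      (HomMod O S (liftSub q (⊤ : Subgroup (ZMod M)ˣ)) O) e)
    (hold : ∀ E : CuspForm (Gamma0 (q * M)) 2, IsCongruentForm S abar E →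
      ∃ (M' : ℕ) (g : CuspForm (Gamma0 M') 2), M' ∣ M ∧ g.IsNormalizedEigenform ∧
        ∀ ℓ : ℕ, ℓ.Prime → ℓ ∉ S → qCoeff g ℓ = qCoeff E ℓ)
    (k : ℕ) {x : HomMod O S (liftSub q (⊤ : Subgroup (ZMod M)ˣ)) O}
    (hx : x ∈ localPart O e (HomMod O S (liftSub q (⊤ : Subgroup (ZMod M)ˣ)) O))
    (hx0 : degStarH O S h ⊤ k x = 0) : x = 0 :=
  eq_zero_of_degStarH h hinj hL hS hEis he 0 (fun _ _ _ _ _ _ _ E hE _ => hold E hE) k hx hx0
    (zero_smul _ x)

/-- **The rank at most doubles at a level raising prime.** -/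
theorem finrank_localPart_le [IsAdicComplete (maximalIdeal O) O] (h : RaiseData q M)
    (hinj : Function.Injective (algebraMap O ℂ))
    (hL : Squarefree (M * q)) (hS : ∀ v : ℕ, v.Prime → v ∣ M * q → v ∈ S)
    (hEis : ∃ ℓ : ℕ, ℓ.Prime ∧ ℓ ∉ S ∧ abar ℓ ≠ 1 + (ℓ : ResidueField O))
    (hold : ∀ E : CuspForm (Gamma0 (q * M)) 2, IsCongruentForm S abar E →
      ∃ (M' : ℕ) (g : CuspForm (Gamma0 M') 2), M' ∣ M ∧ g.IsNormalizedEigenform ∧
        ∀ ℓ : ℕ, ℓ.Prime → ℓ ∉ S → qCoeff g ℓ = qCoeff E ℓ) :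
    ∃ (e : OpRing O (M * q) S) (e₀ : OpRing O M S),
      IsLocalizer (resIdeal S abar (M * q))
        (HomMod O S (⊤ : Subgroup (ZMod (M * q))ˣ) O) e ∧
      IsLocalizer (resIdeal S abar M) (HomMod O S (⊤ : Subgroup (ZMod M)ˣ) O) e₀ ∧
      Module.finrank O (localPart O e (HomMod O S (⊤ : Subgroup (ZMod (M * q))ˣ) O)) ≤
        2 * Module.finrank O (localPart O e₀ (HomMod O S (⊤ : Subgroup (ZMod M)ˣ) O)) := by
  obtain ⟨e, he, he₀⟩ := exists_isLocalizer_pair (O := O) S (⊤ : Subgroup (ZMod M)ˣ) abar (q := q)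
  have hqS : q ∈ S := hS q h.prime (dvd_mul_left q M)
  let ε := lowerOp O M q S e
  let N₀ := localPart O ε (HomMod O S (⊤ : Subgroup (ZMod M)ˣ) O)
  let f : localPart O e (HomMod O S (liftSub q (⊤ : Subgroup (ZMod M)ˣ)) O) →ₗ[O] N₀ × N₀ :=
    { toFun := fun x => (⟨_, (degStarH_mem_localPart h hqS 0 x.2).1⟩,
        ⟨_, (degStarH_mem_localPart h hqS 0 x.2).2⟩)
      map_add' := fun x y => by ext : 2 <;> simp
      map_smul' := fun c x => by ext : 2 <;> simp }
  have hf : Function.Injective f := (injective_iff_map_eq_zero f).2 fun x hx => Subtype.ext <|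
    injective_degStarH h hinj hL hS hEis he hold 0 x.2
      (Prod.ext (congrArg (fun z => (z.1 : HomMod O S (⊤ : Subgroup (ZMod M)ˣ) O)) hx)
        (congrArg (fun z => (z.2 : HomMod O S (⊤ : Subgroup (ZMod M)ˣ) O)) hx))
  have hle := LinearMap.finrank_le_finrank_of_injective hf
  rw [Module.finrank_prod, ← two_mul] at hle
  have key : ∀ K : Subgroup (ZMod (M * q))ˣ,
      IsLocalizer (resIdeal S abar (M * q)) (HomMod O S K O) e →
      Module.finrank O (localPart O e (HomMod O S K O)) ≤ 2 * Module.finrank O N₀ →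
      K = ⊤ → IsLocalizer (resIdeal S abar (M * q))
          (HomMod O S (⊤ : Subgroup (ZMod (M * q))ˣ) O) e ∧
        Module.finrank O (localPart O e (HomMod O S (⊤ : Subgroup (ZMod (M * q))ˣ) O)) ≤
          2 * Module.finrank O N₀ := by
    rintro K h1 h2 rfl
    exact ⟨h1, h2⟩
  obtain ⟨h1, h2⟩ := key _ he hle liftSub_top
  exact ⟨e, ε, h1, he₀, h2⟩

end Fermat.Agent.RT.Lift

end
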