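import Fermat.Agent.Newforms.LevelRaiseEigen
import Fermat.Agent.RT.GammaH.Twist
import Fermat.Agent.RT.GammaH.DescentScalar

/-!
# The eigenvalue of `U_q` on an old eigenform

An eigenform of level `q R`, `q ∤ R`, with the eigensystem of an eigenform `g` of level dividing `R`
at almost all primes has `a_q` a root of `X ^ 2 - a_q(g) X + q`.
-/

set_option autoImplicit false

noncomputable section

open CongruenceSubgroup UpperHalfPlane ModularFormClass Matrix.SpecialLinearGroup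
open scoped MatrixGroups ModularForm

namespace Fermat.Agent.RT.Lift

open Fermat.Agent.Newforms (ALData lowerUni mem_gamma0_iff_dvd)
open Fermat.Agent.RT.GammaH

theorem lowerUni_mul (a b : ℤ) : lowerUni a * lowerUni b = lowerUni (a + b) :=
  Subtype.ext ((Matrix.SpecialLinearGroup.coe_mul _ _).trans
    (by simp [lowerUni]))

/-- Invariance under `Γ₀(q R)` and `(1, 0; R, 1)` is invariance under `Γ₀(R)`. -/
theorem slash_eq_of_lowerUni {q R : ℕ} (hq : q.Prime) {v : ℍ → ℂ}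
    (hv : ∀ γ ∈ Gamma0 (q * R), v ∣[(2 : ℤ)] γ = v)
    (hL : v ∣[(2 : ℤ)] lowerUni (R : ℤ) = v) {γ : SL(2, ℤ)} (hγ : γ ∈ Gamma0 R) :
    v ∣[(2 : ℤ)] γ = v := by
  have hLx : ∀ x : ℕ, v ∣[(2 : ℤ)] lowerUni ((R : ℤ) * x) = v := fun x => by
    induction x with
    | zero =>
      rw [show lowerUni ((R : ℤ) * (0 : ℕ)) = 1 by
        ext i j; fin_cases i <;> fin_cases j <;> simp [lowerUni], SlashAction.slash_one]
    | succ x ih =>
      rw [show lowerUni ((R : ℤ) * (x + 1 : ℕ)) = lowerUni (R : ℤ) * lowerUni ((R : ℤ) * x) by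
        rw [lowerUni_mul]; congr 1; push_cast; ring,
        SlashAction.slash_mul, hL, ih]
  have main : ∀ δ : SL(2, ℤ), δ ∈ Gamma0 R → ¬ (q : ℤ) ∣ δ 1 1 → v ∣[(2 : ℤ)] δ = v := by
    intro δ hδ hd
    have : Fact q.Prime := ⟨hq⟩
    obtain ⟨c, hc⟩ := mem_gamma0_iff_dvd.1 hδ
    set x : ZMod q := -(c : ZMod q) / (δ 1 1 : ℤ) with hx
    have hd' : ((δ 1 1 : ℤ) : ZMod q) ≠ 0 := fun h =>
      hd ((ZMod.intCast_zmod_eq_zero_iff_dvd _ _).1 h)
    have hdvd : (q : ℤ) ∣ c + δ 1 1 * (x.val : ℕ) := by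
      rw [← ZMod.intCast_zmod_eq_zero_iff_dvd]
      push_cast
      rw [ZMod.natCast_zmod_val, hx, mul_div_cancel₀ _ hd']
      ring
    have hmem : δ * lowerUni ((R : ℤ) * (x.val : ℕ)) ∈ Gamma0 (q * R) := by
      rw [mem_gamma0_iff_dvd]
      have h10 : (δ * lowerUni ((R : ℤ) * (x.val : ℕ))) 1 0 =
          (R : ℤ) * (c + δ 1 1 * (x.val : ℕ)) := by
        show ((δ : Matrix (Fin 2) (Fin 2) ℤ) * (lowerUni ((R : ℤ) * (x.val : ℕ)) :
          Matrix (Fin 2) (Fin 2) ℤ)) 1 0 = _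
        rw [Matrix.mul_apply, Fin.sum_univ_two, hc]
        simp [lowerUni]
        ring
      rw [h10, Nat.cast_mul, mul_comm (q : ℤ)]
      exact mul_dvd_mul_left _ hdvd
    have hinv : v ∣[(2 : ℤ)] (lowerUni ((R : ℤ) * (x.val : ℕ)))⁻¹ = v := by
      conv_lhs => rw [← hLx x.val]
      rw [← SlashAction.slash_mul, mul_inv_cancel, SlashAction.slash_one]
    rw [show δ = δ * lowerUni ((R : ℤ) * (x.val : ℕ)) * (lowerUni ((R : ℤ) * (x.val : ℕ)))⁻¹ by
      group, SlashAction.slash_mul, hv _ hmem, hinv]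
  by_cases hd : (q : ℤ) ∣ γ 1 1
  · have hT : ModularGroup.T ∈ Gamma0 R := mem_gamma0_iff_dvd.2 (by simp [ModularGroup.coe_T])
    have hT' : ModularGroup.T ∈ Gamma0 (q * R) := mem_gamma0_iff_dvd.2 (by simp [ModularGroup.coe_T])
    have h := main (γ * ModularGroup.T) (mul_mem hγ hT) fun hdvd => by
      have h11 : (γ * ModularGroup.T) 1 1 = γ 1 0 + γ 1 1 := by
        simp [ModularGroup.coe_T, Matrix.SpecialLinearGroup.coe_mul, Matrix.mul_apply, Fin.sum_univ_two]
      rw [h11] at hdvd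
      have hc := (dvd_add_left hd).1 hdvd
      have hdet := Matrix.det_fin_two (γ : Matrix (Fin 2) (Fin 2) ℤ)
      rw [γ.det_coe] at hdet
      exact (Nat.prime_iff_prime_int.1 hq).not_dvd_one
        (hdet ▸ dvd_sub (dvd_mul_of_dvd_right hd _) (dvd_mul_of_dvd_right hc _))
    rw [show γ = γ * ModularGroup.T * ModularGroup.T⁻¹ by group, SlashAction.slash_mul, h,
      hv _ (inv_mem hT')]
  · exact main γ hγ hd

theorem slash_diag_smul {q : ℕ} (c : ℂ) (f : ℍ → ℂ) :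
    (c • f) ∣[(2 : ℤ)] ModularForm.heckeDiagMatrix q =
      c • (f ∣[(2 : ℤ)] ModularForm.heckeDiagMatrix q) := by
  rw [ModularForm.smul_slash, ModularForm.σ_heckeDiagMatrix, ContinuousAlgEquiv.refl_apply]

/-- A form of level `R` which is raised twice to itself vanishes. -/
theorem eq_zero_of_diag_diag {q R : ℕ} [NeZero R] (hq : q.Prime) {w : ℍ → ℂ} {a : ℕ → ℂ}
    (hw : IsNeb R (1 : DirichletCharacter ℂ 1) w) (ha : HasCoeff w a)
    (h : (w ∣[(2 : ℤ)] ModularForm.heckeDiagMatrix q) ∣[(2 : ℤ)] ModularForm.heckeDiagMatrix q =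
      w) : ∀ n, a n = 0 := by
  have h2 := hasCoeff_slash_diag (hasCoeff_slash_diag ha hq.ne_zero) hq.ne_zero
  rw [h] at h2
  have hrec := hw.coeff_unique (one_dvd R) ha h2
  intro n
  induction n using Nat.strong_induction_on with
  | h n ih =>
    rcases Nat.eq_zero_or_pos n with rfl | hn
    · have h0 := hrec 0
      simp only [dvd_zero, if_true, Nat.zero_div] at h0
      have hne : (q : ℂ) * q - 1 ≠ 0 := by
        rw [sub_ne_zero, ← Nat.cast_mul]
        exact_mod_cast (Nat.one_lt_mul_iff.2 ⟨hq.pos, hq.pos, Or.inl hq.one_lt⟩).ne'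
      have hz : ((q : ℂ) * q - 1) * a 0 = 0 := by linear_combination -h0
      exact (mul_eq_zero.1 hz).resolve_left hne
    · rw [hrec n]
      split_ifs
      · rw [ih _ ((Nat.div_le_self _ _).trans_lt (Nat.div_lt_self hn hq.one_lt)), mul_zero,
          mul_zero]
      · rw [mul_zero]
      · rfl

/-- **The `U_q`-eigenvalue of an old eigenform.** -/
theorem qCoeff_root_of_old {q R M : ℕ} [NeZero R] (hq : q.Prime) (hqR : ¬ q ∣ R) (hMR : M ∣ R)
    {f : CuspForm (Gamma0 (q * R)) 2} (hf : f.IsNormalizedEigenform)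
    {g : CuspForm (Gamma0 M) 2} (hg : g.IsNormalizedEigenform) (S : Finset ℕ)
    (heq : ∀ ℓ : ℕ, ℓ.Prime → ℓ ∉ S → qCoeff g ℓ = qCoeff f ℓ) :
    qCoeff f q ^ 2 - qCoeff g q * qCoeff f q + q = 0 := by
  classical
  have : NeZero q := ⟨hq.ne_zero⟩
  have : NeZero (q * R) := ⟨mul_ne_zero hq.ne_zero (NeZero.ne R)⟩
  have : NeZero M := ⟨fun h => NeZero.ne R (Nat.eq_zero_of_zero_dvd (h ▸ hMR))⟩
  set T : Finset ℕ := ((S ∪ R.primeFactors).filter Nat.Prime).erase q with hTdef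
  set r := ∏ t ∈ T, t with hr
  have hTp : ∀ t ∈ T, t.Prime ∧ t ≠ q := fun t ht =>
    ⟨(Finset.mem_filter.1 (Finset.mem_of_mem_erase ht)).2, Finset.ne_of_mem_erase ht⟩
  have hr0 : NeZero r := ⟨Finset.prod_ne_zero_iff.2 fun t ht => (hTp t ht).1.ne_zero⟩
  have hqr : ¬ q ∣ r := by
    rw [hr, hq.prime.dvd_finsetProd_iff]
    rintro ⟨t, ht, hd⟩
    exact (hTp t ht).2 ((Nat.prime_dvd_prime_iff_eq hq (hTp t ht).1).1 hd).symm
  have hmem : ∀ {ℓ : ℕ}, ℓ.Prime → ℓ ≠ q → (ℓ ∈ S ∨ ℓ ∣ R) → ℓ ∣ r := fun {ℓ} hℓ hne h => by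
    refine Finset.dvd_prod_of_mem _ (Finset.mem_erase.2 ⟨hne, Finset.mem_filter.2 ⟨?_, hℓ⟩⟩)
    rcases h with h | h
    · exact Finset.mem_union_left _ h
    · exact Finset.mem_union_right _ (Nat.mem_primeFactors.2 ⟨hℓ, h, NeZero.ne R⟩)
  -- the coefficients prime to `q r` agree
  have : NeZero (q * (R * r)) := ⟨mul_ne_zero hq.ne_zero (mul_ne_zero (NeZero.ne R) hr0.out)⟩
  have hd1 : q * R ∣ q * (R * r) := mul_dvd_mul_left q (dvd_mul_right R r)
  have hd2 : M ∣ q * (R * r) := hMR.trans ((dvd_mul_right R r).trans (dvd_mul_left _ q))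
  obtain ⟨f', hf', hf'c⟩ := Newforms.exists_eigenform_of_dvd hd1 hf
  have hcop : ∀ n : ℕ, ¬ q ∣ n → n.Coprime r → qCoeff f n = qCoeff g n := by
    intro n hqn hnr
    have hnN : n.Coprime (q * (R * r)) := by
      refine Nat.Coprime.mul_right ((hq.coprime_iff_not_dvd.2 hqn).symm) (Nat.Coprime.mul_right ?_ hnr)
      refine Nat.coprime_of_dvd fun ℓ hℓ h1 h2 => ?_
      have hne : ℓ ≠ q := fun h => hqn (h ▸ h1)
      exact hℓ.ne_one (Nat.eq_one_of_dvd_coprimes hnr h1 (hmem hℓ hne (Or.inr h2)))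
    rw [← qCoeff_eq_of_coprime hf' hf hd1 (fun ℓ hℓ hℓN => (hf'c ℓ hℓ (Or.inr hℓN)).symm) hnN,
      qCoeff_eq_of_coprime hf' hg hd2 (fun ℓ hℓ hℓN => ?_) hnN]
    rw [hf'c ℓ hℓ (Or.inr hℓN), heq ℓ hℓ fun hS => hℓN ?_]
    by_cases hℓq : ℓ = q
    · subst hℓq; exact dvd_mul_right _ _
    · exact ((hmem hℓ hℓq (Or.inl hS)).trans (dvd_mul_left r R)).trans (dvd_mul_left _ q)
  -- depleted forms
  set R' := R * r * r with hR'
  have : NeZero R' := ⟨mul_ne_zero (mul_ne_zero (NeZero.ne R) hr0.out) hr0.out⟩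
  have : NeZero (q * R') := ⟨mul_ne_zero hq.ne_zero (NeZero.ne R')⟩
  have : NeZero (R * r) := ⟨mul_ne_zero (NeZero.ne R) hr0.out⟩
  have hqR' : ¬ q ∣ R' := fun h =>
    (hq.dvd_mul.1 h).elim (fun h => (hq.dvd_mul.1 h).elim hqR hqr) hqr
  obtain ⟨F, hF, hFa, -⟩ := exists_deplete (r := r) ((dvd_mul_left r R).trans (dvd_mul_left _ q))
    (one_dvd _) ((isNeb_cuspForm f).of_dvd hd1) ((isNeb_cuspForm f).hasCoeff (one_dvd _))
  replace hF : IsNeb (q * R') (1 : DirichletCharacter ℂ 1) F := by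
    rw [hR', ← mul_assoc q]; exact hF
  obtain ⟨A, hA, hAa, -⟩ := exists_deplete (r := r) (dvd_mul_left r R) (one_dvd _)
    ((isNeb_cuspForm g).of_dvd (hMR.trans (dvd_mul_right R r)))
    ((isNeb_cuspForm g).hasCoeff (one_dvd M))
  set α := qCoeff f q with hα
  set a := qCoeff g q with ha
  set aF : ℕ → ℂ := fun n => if n.Coprime r then qCoeff f n else 0 with haF
  set aA : ℕ → ℂ := fun n => if n.Coprime r then qCoeff g n else 0 with haA
  have hqcop : ∀ m, (q * m).Coprime r ↔ m.Coprime r := fun m =>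
    ⟨fun h => h.coprime_mul_left, fun h => (hq.coprime_iff_not_dvd.2 hqr).mul_left h⟩
  -- the identity of coefficients
  have hrel : ∀ n, (q : ℂ) * (aF n - aA n) =
      if q ∣ n then (q : ℂ) * (α * aF (n / q) - a * aA (n / q) +
        if q ∣ n / q then (q : ℂ) * aA (n / q / q) else 0) else 0 := by
    intro n
    by_cases hn : q ∣ n
    · obtain ⟨m, rfl⟩ := hn
      rw [if_pos (dvd_mul_right q m), Nat.mul_div_cancel_left _ hq.pos]
      congr 1
      have h1 := (Newforms.hOp_eq_smul_iff hq f _).1 (Newforms.hOp_of_isNormalizedEigenform hf hq) m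
      have h2 := (Newforms.hOp_eq_smul_iff hq g _).1 (Newforms.hOp_of_isNormalizedEigenform hg hq) m
      rw [mul_comm m q] at h1 h2
      simp only [HeckeDuality.eulerWeight, dvd_mul_right, if_true] at h1
      simp only [HeckeDuality.eulerWeight, show ¬ q ∣ M from fun h => hqR (h.trans hMR),
        if_false] at h2
      simp only [haF, haA, hqcop]
      by_cases hm : q ∣ m
      · obtain ⟨k, rfl⟩ := hm
        simp only [dvd_mul_right, if_true, Nat.mul_div_cancel_left _ hq.pos, hqcop] at h1 h2 ⊢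
        split_ifs
        · linear_combination h1 - h2
        · ring
      · rw [if_neg hm] at h1 h2 ⊢
        split_ifs
        · linear_combination h1 - h2
        · ring
    · rw [if_neg hn, mul_eq_zero]
      refine Or.inr ?_
      simp only [haF, haA]
      split_ifs with hc
      · rw [hcop n hn hc, sub_self]
      · rw [sub_self]
  set d := ModularForm.heckeDiagMatrix q with hd
  have hFi : ∀ γ ∈ Gamma0 (q * R'), F ∣[(2 : ℤ)] γ = F := fun _ => hF.slash_eq_of_trivial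
  have hAi : ∀ γ ∈ Gamma0 R', A ∣[(2 : ℤ)] γ = A := fun _ => hA.slash_eq_of_trivial
  obtain ⟨x, y, hxy⟩ := Nat.isCoprime_iff_coprime.2 (hq.coprime_iff_not_dvd.2 hqR')
  let D : ALData q R' := ⟨hq.ne_zero, x, -y, 1, 1, by linear_combination hxy⟩
  have hAD : A ∣[(2 : ℤ)] D.gl = A ∣[(2 : ℤ)] d := slash_al_of_lower D hAi
  have hAdn : IsNeb (q * R') (1 : DirichletCharacter ℂ 1) (A ∣[(2 : ℤ)] d) :=
    hAD ▸ hA.slash_al D (dvd_mul_left R' q)
  have hAd := hasCoeff_slash_diag hAa hq.ne_zero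
  -- the function `v` with `v|d = q (F - A)`
  set v := α • F - a • A + A ∣[(2 : ℤ)] d with hvdef
  have hv : IsNeb (q * R') (1 : DirichletCharacter ℂ 1) v :=
    ((hF.smul α).sub ((hA.of_dvd (dvd_mul_left R' q)).smul a)).add hAdn
  have hva : HasCoeff v fun n => α * aF n - a * aA n + if q ∣ n then (q : ℂ) * aA (n / q) else 0 :=
    ((hFa.smul α).sub (hAa.smul a)).add hAd
  have hvd : v ∣[(2 : ℤ)] d = (q : ℂ) • (F - A) :=
    (hasCoeff_slash_diag hva hq.ne_zero).ext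
      (((hFa.sub hAa).smul (q : ℂ)).congr fun n => hrel n)
  have hFA : IsNeb (q * R') (1 : DirichletCharacter ℂ 1) ((q : ℂ) • (F - A)) :=
    (hF.sub (hA.of_dvd (dvd_mul_left R' q))).smul _
  -- it has level `R'`
  have hvR : ∀ γ ∈ Gamma0 R', v ∣[(2 : ℤ)] γ = v := by
    refine fun γ hγ => slash_eq_of_lowerUni hq (fun _ => hv.slash_eq_of_trivial) ?_ hγ
    have hmem : lowerUni ((q : ℤ) * R') ∈ Gamma0 (q * R') :=
      mem_gamma0_iff_dvd.2 (by simp [lowerUni])
    have hconj : d * mapGL ℝ (lowerUni ((q : ℤ) * R')) = mapGL ℝ (lowerUni (R' : ℤ)) * d := by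
      refine Units.ext ?_
      rw [Units.val_mul, Units.val_mul, Newforms.mapGL_eq_realMat, Newforms.mapGL_eq_realMat, hd,
        ModularForm.val_heckeDiagMatrix hq.ne_zero]
      ext i j
      fin_cases i <;> fin_cases j <;>
        simp [lowerUni, Newforms.realMat, Matrix.mul_apply, Fin.sum_univ_two]
      ring
    have h1 : (v ∣[(2 : ℤ)] d) ∣[(2 : ℤ)] (mapGL ℝ (lowerUni ((q : ℤ) * R')) : GL (Fin 2) ℝ) =
        v ∣[(2 : ℤ)] d := by
      rw [hvd]; exact hFA.slash_eq_of_trivial hmem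
    rw [← SlashAction.slash_mul, hconj, SlashAction.slash_mul] at h1
    have h2 := congrArg (fun X => X ∣[(2 : ℤ)] d⁻¹) h1
    simp only [← SlashAction.slash_mul, mul_inv_cancel, mul_inv_cancel_right,
      SlashAction.slash_one] at h2
    exact h2
  have hvn : IsNeb R' (1 : DirichletCharacter ℂ 1) v :=
    ⟨hv.cusp, fun γ hγ => by rw [MulChar.one_apply (isUnit_of_subsingleton _), one_smul, hvR γ hγ]⟩
  set w := (α / q) • v + A with hw
  have hwn : IsNeb R' (1 : DirichletCharacter ℂ 1) w := (hvn.smul _).add hA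
  have hwa := (hva.smul (α / q)).add hAa
  have hxn : IsNeb R' (1 : DirichletCharacter ℂ 1) (v - (α - a) • A) := hvn.sub (hA.smul _)
  have hq0 : (q : ℂ) ≠ 0 := Nat.cast_ne_zero.2 hq.ne_zero
  have hx : v - (α - a) • A = w ∣[(2 : ℤ)] d := by
    rw [hw, SlashAction.add_slash, slash_diag_smul, hvd, smul_smul, div_mul_cancel₀ _ hq0, hvdef]
    module
  have hwD : w ∣[(2 : ℤ)] D.gl = v - (α - a) • A :=
    (slash_al_of_lower D fun _ => hwn.slash_eq_of_trivial).trans hx.symm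
  have hxD : (v - (α - a) • A) ∣[(2 : ℤ)] D.gl = w := by
    rw [← hwD]
    exact D.slash_gl_gl fun g hg =>
      (hwn.of_dvd (dvd_mul_left R' q)).slash_eq_of_trivial hg
  have hwdd : (w ∣[(2 : ℤ)] d) ∣[(2 : ℤ)] d = w := by
    conv_rhs => rw [← hxD, slash_al_of_lower D fun _ => hxn.slash_eq_of_trivial, hx]
  have h1 := eq_zero_of_diag_diag hq hwn hwa hwdd 1
  simp only [haF, haA, if_pos (Nat.coprime_one_left r), hq.not_dvd_one, if_false, hf.qCoeff_one,
    hg.qCoeff_one, mul_one, add_zero] at h1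
  field_simp at h1
  linear_combination h1

end Fermat.Agent.RT.Lift

end
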