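import Fermat.Agent.RT.Lift.NewKernel
import Fermat.Agent.RT.GammaH.Embed

/-!
# The rank of the localised module at a level with auxiliary primes

If no newform congruent to the residual system is new at the primes of `L` outside `N`, the rank of
the localised module of `Γ₀(L)` is at most `2 ^ t` times that of `Γ₀(N)`, `t` the number of those
primes.
-/

set_option autoImplicit false

noncomputable section

open CongruenceSubgroup ModularFormClass

namespace Fermat.Agent.RT.Lift

open Fermat.Agent.RT.GammaH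
open IsLocalRing

/-- Two localisers have the same local part. -/
theorem localPart_eq {O : Type} [CommRing O] {𝔸 : Type} [CommRing 𝔸] [Algebra O 𝔸] {m : Ideal 𝔸}
    {H : Type*} [AddCommGroup H] [Module 𝔸 H] [Module O H] [IsScalarTower O 𝔸 H] {e e' : 𝔸}
    (hm : m ≠ ⊤) (h : IsLocalizer m H e) (h' : IsLocalizer m H e') :
    localPart O e H = localPart O e' H := by
  have key : ∀ {a b : 𝔸}, IsLocalizer m H a → IsLocalizer m H b →
      localPart O a H ≤ localPart O b H := fun {a b} ha hb x hx => by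
    have hbm : b ∉ m := fun hc => hm ((Ideal.eq_top_iff_one m).2
      (by simpa using sub_mem hc hb.sub_one_mem))
    rw [mem_localPart]
    refine sub_eq_zero.1 (ha.eq_zero_of_smul_eq_zero hbm ?_ ?_)
    · rw [smul_sub, smul_comm, mem_localPart.1 hx]
    · rw [smul_sub, hb.idem, sub_self]
  exact le_antisymm (key h h') (key h' h)

variable {O : Type} [CommRing O] [IsDomain O] [IsDiscreteValuationRing O]
  [IsAdicComplete (maximalIdeal O) O] [Finite (ResidueField O)] [CharZero O]
  {S : Finset ℕ} {abar : ℕ → ResidueField O}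

/-- No congruent newform of level dividing `L` is new at `q`. -/
def NotNewAt (S : Finset ℕ) (abar : ℕ → ResidueField O) (L q : ℕ) : Prop :=
  ∀ (M : ℕ) (g : CuspForm (Gamma0 M) 2), M ∣ L → q ∣ M → g.IsNewform → ¬ IsCongruentForm S abar g

omit [IsAdicComplete (maximalIdeal O) O] [Finite (ResidueField O)] [CharZero O] in
/-- A congruent form at a level `q M` is old at `q`. -/
theorem exists_old_form {M q : ℕ} (hq : q.Prime) [NeZero (q * M)]
    (hS : ∀ v : ℕ, v.Prime → v ∣ q * M → v ∈ S) (hnew : NotNewAt S abar (q * M) q)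
    (E : CuspForm (Gamma0 (q * M)) 2) (hE : IsCongruentForm S abar E) :
    ∃ (M' : ℕ) (g : CuspForm (Gamma0 M') 2), M' ∣ M ∧ g.IsNormalizedEigenform ∧
      ∀ ℓ : ℕ, ℓ.Prime → ℓ ∉ S → qCoeff g ℓ = qCoeff E ℓ := by
  obtain ⟨M', g, hM', hg, hgE⟩ := Newforms.exists_newform hE.1
  have heq : ∀ ℓ : ℕ, ℓ.Prime → ℓ ∉ S → qCoeff g ℓ = qCoeff E ℓ := fun ℓ hℓ hℓS =>
    hgE ℓ hℓ fun hd => hℓS (hS ℓ hℓ hd)
  refine ⟨M', g, ((hq.coprime_iff_not_dvd.2 fun hd => hnew M' g hM' hd hg ?_).symm
    ).dvd_of_dvd_mul_left hM', hg.1, heq⟩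
  obtain ⟨φ, hφ⟩ := hE.2
  exact ⟨hg.1, φ, fun ℓ hℓ hℓS z hz => hφ ℓ hℓ hℓS z (hz.trans (heq ℓ hℓ hℓS))⟩

/-- **The rank bound.** -/
theorem finrank_le_pow {N : ℕ} [NeZero N] : ∀ (L : ℕ) [NeZero L], N ∣ L → Squarefree L →
    (∀ v : ℕ, v.Prime → v ∣ L → v ∈ S) →
    (∃ ℓ : ℕ, ℓ.Prime ∧ ℓ ∉ S ∧ abar ℓ ≠ 1 + (ℓ : ResidueField O)) →
    (∀ q : ℕ, q.Prime → q ∣ L → ¬ q ∣ N → NotNewAt S abar L q) →
    ∀ {e : OpRing O L S} {e₀ : OpRing O N S},
      IsLocalizer (resIdeal S abar L) (HomMod O S (⊤ : Subgroup (ZMod L)ˣ) O) e →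
      IsLocalizer (resIdeal S abar N) (HomMod O S (⊤ : Subgroup (ZMod N)ˣ) O) e₀ →
      Module.finrank O (localPart O e (HomMod O S (⊤ : Subgroup (ZMod L)ˣ) O)) ≤
        2 ^ (L / N).primeFactors.card *
          Module.finrank O (localPart O e₀ (HomMod O S (⊤ : Subgroup (ZMod N)ˣ) O)) := by
  obtain ⟨σ, hσ⟩ := exists_injective_complex O
  let : Algebra O ℂ := σ.toAlgebra
  intro L
  induction L using Nat.strong_induction_on with
  | h L ih =>
    intro _ hNL hL hS hEis hnew e e₀ he he₀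
    obtain ⟨t, rfl⟩ := hNL
    rw [Nat.mul_div_cancel_left _ (NeZero.pos N)]
    by_cases ht : t = 1
    · subst ht
      have : ∀ (L : ℕ) (_ : L = N) (e' : OpRing O L S),
          IsLocalizer (resIdeal S abar L) (HomMod O S (⊤ : Subgroup (ZMod L)ˣ) O) e' →
          Module.finrank O (localPart O e' (HomMod O S (⊤ : Subgroup (ZMod L)ˣ) O)) =
            Module.finrank O (localPart O e₀ (HomMod O S (⊤ : Subgroup (ZMod N)ˣ) O)) := by
        rintro L rfl e' he'
        rw [localPart_eq (resIdeal_ne_top S abar) he' he₀]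
      rw [this _ (mul_one N) e he, Nat.primeFactors_one, Finset.card_empty, pow_zero, one_mul]
    obtain ⟨q, hq, t', rfl⟩ := Nat.exists_prime_and_dvd ht
    have ht' : t' ≠ 0 := fun h0 => NeZero.ne (N * (q * t')) (by rw [h0, mul_zero, mul_zero])
    have hqt : ¬ q ∣ N * t' := fun hd => hq.not_isUnit (hL q (by
      rw [show N * (q * t') = q * (N * t') by ring]; exact Nat.mul_dvd_mul_left q hd))
    have : NeZero (N * t') := ⟨mul_ne_zero (NeZero.ne N) ht'⟩
    have : NeZero (q * (N * t')) := ⟨mul_ne_zero hq.ne_zero (NeZero.ne _)⟩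
    have : NeZero (N * t' * q) := ⟨mul_ne_zero (NeZero.ne _) hq.ne_zero⟩
    have hdvd : N * t' ∣ N * (q * t') := ⟨q, by ring⟩
    have hlevel : N * t' * q = N * (q * t') := by ring
    have hqN : ¬ q ∣ N := fun hd => hqt (dvd_mul_of_dvd_left hd t')
    have hnewq : NotNewAt S abar (q * (N * t')) q := by
      rw [show q * (N * t') = N * (q * t') by ring]
      exact hnew q hq (dvd_mul_of_dvd_right (dvd_mul_right q t') N) hqN
    obtain ⟨e₁, e₂, he₁, he₂, hle⟩ := finrank_localPart_le (O := O) (S := S) (abar := abar)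
      (M := N * t') (q := q) ⟨hq, hqt⟩ hσ (hlevel ▸ hL) (hlevel ▸ hS) hEis
      (exists_old_form hq (fun v hv hd => hS v hv (hlevel ▸ (mul_comm q (N * t') ▸ hd))) hnewq)
    have key : ∀ (L : ℕ) (_ : L = N * t' * q) (e' : OpRing O L S),
        IsLocalizer (resIdeal S abar L) (HomMod O S (⊤ : Subgroup (ZMod L)ˣ) O) e' →
        Module.finrank O (localPart O e' (HomMod O S (⊤ : Subgroup (ZMod L)ˣ) O)) =
          Module.finrank O
            (localPart O e₁ (HomMod O S (⊤ : Subgroup (ZMod (N * t' * q))ˣ) O)) := by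
      rintro L rfl e' he'
      rw [localPart_eq (resIdeal_ne_top S abar) he' he₁]
    rw [key _ hlevel.symm e he]
    have hlt : N * t' < N * (q * t') := by
      rw [← hlevel]
      exact lt_mul_of_one_lt_right (NeZero.pos _) hq.one_lt
    have ih' := ih (N * t') hlt (dvd_mul_right N t') (hL.squarefree_of_dvd hdvd)
      (fun v hv hd => hS v hv (hd.trans hdvd)) hEis
      (fun v hv hd hvN M g hM hvM => hnew v hv (hd.trans hdvd) hvN M g (hM.trans hdvd) hvM)
      he₂ he₀
    rw [Nat.mul_div_cancel_left _ (NeZero.pos N)] at ih'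
    refine hle.trans ((Nat.mul_le_mul_left 2 ih').trans (le_of_eq ?_))
    have hc : q.Coprime t' := hq.coprime_iff_not_dvd.2 fun hd => hqt (dvd_mul_of_dvd_right hd N)
    have hdisj : Disjoint ({q} : Finset ℕ) t'.primeFactors := Finset.disjoint_singleton_left.2
      fun hm => hqt (dvd_mul_of_dvd_right (Nat.dvd_of_mem_primeFactors hm) N)
    rw [hc.primeFactors_mul, hq.primeFactors, Finset.card_union_of_disjoint hdisj,
      Finset.card_singleton, pow_add, pow_one, mul_assoc]

end Fermat.Agent.RT.Lift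

end
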